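import Fermat.Agent.ZSel.Main
import Fermat.Agent.ZEC.Facts

/-!
# Theorem Z, step 1 for elliptic curves
-/

set_option autoImplicit false

open scoped ComplexConjugate Pointwise

namespace Fermat.Agent.ZSel

open WeierstrassCurve WeierstrassCurve.Affine WeierstrassCurve.Affine.Point
open Fermat.Agent.EC Fermat.Agent.ERep Fermat.Agent.Tate Fermat.Agent.FrobE Fermat.Agent.QuadRep
  Fermat.Agent.ZEC

local notation "Qb" => AlgebraicClosure ℚ

section algebra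

theorem isUnit_of_red2 {k : ℕ} (hk : k ≠ 0) {b : ZMod (2 ^ k)} (hb : red2 hk b ≠ 0) :
    IsUnit b := by
  have h1 : red2 hk b = 1 := by
    generalize red2 hk b = y at *
    revert y
    decide
  have h2 : red2 hk (b - 1) = 0 := by rw [map_sub, h1, map_one, sub_self]
  obtain ⟨c, hc⟩ := red2_eq_zero hk h2
  have h3 : IsNilpotent (2 * c : ZMod (2 ^ k)) := by
    refine ⟨k, ?_⟩
    have h4 : (2 : ZMod (2 ^ k)) ^ k = 0 := by
      have := ZMod.natCast_self (2 ^ k)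
      rwa [Nat.cast_pow, Nat.cast_ofNat] at this
    rw [mul_pow, h4, zero_mul]
  have h5 := h3.isUnit_add_one
  rwa [← hc, sub_add_cancel] at h5

/-- trace and determinant of a nontrivial square zero perturbation of the identity -/
theorem trace_det_unip {k : ℕ} (hk : k ≠ 0) {m : M2 (ZMod (2 ^ k))} (h : (m - 1) * (m - 1) = 0)
    (h1 : m.map (red2 hk) ≠ 1) : m.trace = 2 ∧ m.det = 1 := by
  set M := m - 1 with hM
  have hm : m = 1 + M := by rw [hM]; abel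
  have e : ∀ i j, (M * M) i j = M i 0 * M 0 j + M i 1 * M 1 j := fun i j => by
    rw [Matrix.mul_apply, Fin.sum_univ_two]
  have e00 : M 0 0 * M 0 0 + M 0 1 * M 1 0 = 0 := by rw [← e, h]; rfl
  have e01 : M 0 0 * M 0 1 + M 0 1 * M 1 1 = 0 := by rw [← e, h]; rfl
  have e10 : M 1 0 * M 0 0 + M 1 1 * M 1 0 = 0 := by rw [← e, h]; rfl
  have e11 : M 1 0 * M 0 1 + M 1 1 * M 1 1 = 0 := by rw [← e, h]; rfl
  have hbc : red2 hk (M 0 1) ≠ 0 ∨ red2 hk (M 1 0) ≠ 0 := by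
    by_contra hcon
    push Not at hcon
    apply h1
    have f00 := congrArg (red2 hk) e00
    have f11 := congrArg (red2 hk) e11
    rw [map_add, map_mul, map_mul, hcon.1, zero_mul, add_zero, _root_.map_zero] at f00
    rw [map_add, map_mul, map_mul, hcon.1, mul_zero, zero_add, _root_.map_zero] at f11
    have g00 : red2 hk (M 0 0) = 0 := mul_self_eq_zero.1 f00
    have g11 : red2 hk (M 1 1) = 0 := mul_self_eq_zero.1 f11
    rw [hm]
    apply M2_ext
    · rw [Matrix.map_apply, Matrix.add_apply, map_add, g00, add_zero, Matrix.one_apply_eq,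
        Matrix.one_apply_eq, map_one]
    · rw [Matrix.map_apply, Matrix.add_apply, map_add, hcon.1, add_zero,
        Matrix.one_apply_ne (by decide), Matrix.one_apply_ne (by decide), _root_.map_zero]
    · rw [Matrix.map_apply, Matrix.add_apply, map_add, hcon.2, add_zero,
        Matrix.one_apply_ne (by decide), Matrix.one_apply_ne (by decide), _root_.map_zero]
    · rw [Matrix.map_apply, Matrix.add_apply, map_add, g11, add_zero, Matrix.one_apply_eq,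
        Matrix.one_apply_eq, map_one]
  have htr : M 0 0 + M 1 1 = 0 := by
    rcases hbc with hb | hb
    · have h2 := isUnit_of_red2 hk hb
      apply (h2.mul_right_eq_zero).1
      linear_combination e01
    · have h2 := isUnit_of_red2 hk hb
      apply (h2.mul_right_eq_zero).1
      linear_combination e10
  constructor
  · rw [Matrix.trace_fin_two, hm, Matrix.add_apply, Matrix.add_apply, Matrix.one_apply_eq,
      Matrix.one_apply_eq]
    linear_combination htr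
  · rw [Matrix.det_fin_two, hm, Matrix.add_apply, Matrix.add_apply, Matrix.add_apply,
      Matrix.add_apply, Matrix.one_apply_eq, Matrix.one_apply_eq,
      Matrix.one_apply_ne (show (0 : Fin 2) ≠ 1 by decide),
      Matrix.one_apply_ne (show (1 : Fin 2) ≠ 0 by decide)]
    linear_combination (1 + M 0 0) * htr - e00

end algebra

section rep

variable (E : WeierstrassCurve ℚ) [E.IsElliptic]

/-- the representation on the `2^k`-torsion -/
noncomputable def RkE (k : ℕ) : GQ →* M2 (ZMod (2 ^ k)) :=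
  ((PadicInt.toZModPow (p := 2) k).mapMatrix (m := Fin 2)).toMonoidHom.comp
    ((LinearMap.toMatrixAlgEquiv' (R := ℤ_[2]) (n := Fin 2)).toRingEquiv.toRingHom.toMonoidHom.comp
      (repE E 2))

theorem RkE_apply (k : ℕ) (s : GQ) :
    RkE E k s = (LinearMap.toMatrix' (repE E 2 s)).map (PadicInt.toZModPow k) := rfl

theorem ringHom_two_unique (f g : ℤ_[2] →+* ZMod 2) (x : ℤ_[2]) : f x = g x := by
  by_cases hx : IsUnit x
  · have h1 : ∀ y : ZMod 2, IsUnit y → y = 1 := by decide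
    rw [h1 _ (hx.map f), h1 _ (hx.map g)]
  · have h1 : x ∈ IsLocalRing.maximalIdeal ℤ_[2] := (IsLocalRing.mem_maximalIdeal _).2 hx
    rw [PadicInt.maximalIdeal_eq_span_p, Ideal.mem_span_singleton] at h1
    obtain ⟨y, rfl⟩ := h1
    have h2 : ∀ f : ℤ_[2] →+* ZMod 2, f ((2 : ℕ) * y) = 0 := by
      intro f
      rw [map_mul, map_natCast]
      have : ((2 : ℕ) : ZMod 2) = 0 := by decide
      rw [this, zero_mul]
    rw [h2, h2]

theorem RkE_red {k : ℕ} (hk : k ≠ 0) (s : GQ) : (RkE E k s).map (red2 hk) = rbE E s := by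
  rw [RkE_apply, rbE_apply, Matrix.map_map]
  ext i j
  exact ringHom_two_unique ((red2 hk).comp (PadicInt.toZModPow k)) PadicInt.toZMod _

theorem RkE_smooth (k : ℕ) : ∃ L : IntermediateField ℚ Qb, FiniteDimensional ℚ L ∧
    ∀ σ ∈ L.fixingSubgroup, RkE E k σ = 1 := by
  have hfin : Finite (tor 2 (E⁄Qb).Point k) := card_tor_of (card_torE E 2) k
  obtain ⟨L, hL, h⟩ := ERep.exists_level E (S := (tor 2 (E⁄Qb).Point k : Set (E⁄Qb).Point))
    (Set.toFinite _)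
  refine ⟨L, hL, fun σ hσ => ?_⟩
  have hσ' : ∀ x ∈ L, σ x = x := (IntermediateField.mem_fixingSubgroup_iff _ _).1 hσ
  have h1 : ∀ v : Fin 2 → ℤ_[2], ∃ w : Fin 2 → ℤ_[2], repE E 2 σ v - v =
      (((2 : ℕ) : ℤ_[2]) ^ k) • w := by
    intro v
    rw [← TBasis.pr_eq_zero_iff (tb E 2) k]
    apply Subtype.ext
    rw [map_sub, AddSubgroup.coe_sub, pr_repE, h σ hσ' _ ((tb E 2).pr k v).2, sub_self]
    rfl
  rw [RkE_apply]
  ext i j
  obtain ⟨w, hw⟩ := h1 (Pi.single j 1)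
  have h2 := congrFun hw i
  rw [Matrix.map_apply, LinearMap.toMatrix'_apply]
  have h3 : (repE E 2 σ) (Pi.single j 1) i =
      (Pi.single j 1 : Fin 2 → ℤ_[2]) i + ((2 : ℕ) : ℤ_[2]) ^ k * w i := by
    rw [Pi.sub_apply, Pi.smul_apply, smul_eq_mul] at h2
    rw [← h2]
    ring
  have h5 : PadicInt.toZModPow (p := 2) k (((2 : ℕ) : ℤ_[2]) ^ k) = 0 := by
    rw [← RingHom.mem_ker, PadicInt.ker_toZModPow]
    exact Ideal.mem_span_singleton_self _
  rw [h3, map_add, map_mul, h5, zero_mul, add_zero]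
  by_cases hij : i = j
  · subst hij
    rw [Pi.single_eq_same, map_one, Matrix.one_apply_eq]
  · rw [Pi.single_eq_of_ne hij, _root_.map_zero, Matrix.one_apply_ne hij]

theorem RkE_trace (k : ℕ) (s : GQ) :
    (RkE E k s).trace = PadicInt.toZModPow k (trE E 2 s) := by
  rw [RkE_apply, trE, LinearMap.trace_eq_matrix_trace ℤ_[2] (Pi.basisFun ℤ_[2] (Fin 2)),
    Matrix.trace_fin_two, Matrix.trace_fin_two, Matrix.map_apply, Matrix.map_apply, map_add]
  rfl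

theorem RkE_det (k : ℕ) (s : GQ) :
    (RkE E k s).det = PadicInt.toZModPow k (detE E 2 s) := by
  rw [RkE_apply, detE, ← LinearMap.det_toMatrix' (repE E 2 s), Matrix.det_fin_two,
    Matrix.det_fin_two, map_sub, map_mul, map_mul]
  rfl

/-- existence of complex conjugation -/
theorem exists_conj : ∃ (c : GQ) (ι : Qb →+* ℂ), ∀ z, ι (c z) = conj (ι z) := by
  let ι : Qb →+* ℂ := (IsAlgClosed.lift : Qb →ₐ[ℚ] ℂ).toRingHom
  obtain ⟨g, hg⟩ := CFR.exists_comp_eq' (K := ℚ) (L := Qb) ι ((starRingEnd ℂ).comp ι)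
    (Subsingleton.elim _ _)
  exact ⟨g, ι, fun z => (hg z).symm⟩

theorem rbE_one_of {s : GQ} (h : repE E 2 s = 1) : rbE E s = 1 := by
  have h1 : rbE E s = ((PadicInt.toZMod (p := 2)).mapMatrix (m := Fin 2)).toMonoidHom
    ((LinearMap.toMatrixAlgEquiv' (R := ℤ_[2]) (n := Fin 2)).toRingEquiv.toRingHom.toMonoidHom
      (repE E 2 s)) := rfl
  rw [h1, h, map_one, map_one]

theorem RkE_unip {k : ℕ} {s : GQ} (h : (repE E 2 s - 1) * (repE E 2 s - 1) = 0) :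
    (RkE E k s - 1) * (RkE E k s - 1) = 0 := by
  let F : Module.End ℤ_[2] (Fin 2 → ℤ_[2]) →+* M2 (ZMod (2 ^ k)) :=
    ((PadicInt.toZModPow (p := 2) k).mapMatrix (m := Fin 2)).comp
      (LinearMap.toMatrixAlgEquiv' (R := ℤ_[2]) (n := Fin 2)).toRingEquiv.toRingHom
  have h1 : RkE E k s = F (repE E 2 s) := rfl
  have h2 : (RkE E k s - 1) * (RkE E k s - 1) = F ((repE E 2 s - 1) * (repE E 2 s - 1)) := by
    rw [map_mul, map_sub, map_one, ← h1]
  rw [h2, h, _root_.map_zero]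

theorem mem_decomp_of_inertia {A : ValuationSubring Qb} {s : GQ}
    (hs : s ∈ A.inertiaSubgroupIn ℚ) : s ∈ A.decompositionSubgroup ℚ := by
  obtain ⟨τ, -, rfl⟩ := hs
  exact τ.2

variable {W : WeierstrassCurve ℤ} (hWE : W.IsIntegralModelOf E) (hΔ : W.Δ < 0)
  (hodd : ∀ l : ℕ, l.Prime → (l : ℤ) ∣ W.Δ → Odd (padicValInt l W.Δ)) (h2 : (2 : ℤ) ∣ W.Δ)
  (hnr : ∀ x : ℚ, 4 * x ^ 3 + (W.b₂ : ℚ) * x ^ 2 + 2 * (W.b₄ : ℚ) * x + (W.b₆ : ℚ) ≠ 0)
  {N : ℕ} (hN0 : N ≠ 0) (hN : ∀ l : ℕ, l.Prime → (l ∣ N ↔ (l : ℤ) ∣ W.Δ))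

include hWE hΔ hodd h2 hnr hN0 hN

theorem rbHyp_EC : RbHyp (rbE E) N where
  even := (hN 2 Nat.prime_two).2 (by exact_mod_cast h2)
  pos := hN0
  sm := by
    obtain ⟨L, hL, h⟩ := RkE_smooth E 1
    refine ⟨L, hL, fun σ hσ => ?_⟩
    rw [← RkE_red E one_ne_zero, h σ hσ]
    ext a b
    rw [Matrix.map_apply]
    by_cases hab : a = b
    · subst hab; rw [Matrix.one_apply_eq]; exact _root_.map_one _
    · rw [Matrix.one_apply_ne hab]; exact _root_.map_zero _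
  unr := by
    intro ℓ hℓ hℓN A hA s hs
    have hg : W.IsGoodPrimeFor ℓ := fun h => hℓN ((hN ℓ hℓ).2 h)
    have hℓ2 : ℓ ≠ 2 := by
      rintro rfl
      exact hℓN ((hN 2 Nat.prime_two).2 (by exact_mod_cast h2))
    exact rbE_one_of E (repE_inertia_good E 2 hWE hℓ hA hℓ2 hg hs)
  ram := by
    intro v hv hvN A hA
    obtain ⟨s, hs, -, -, h⟩ := exists_inertia_rbE E hWE hv hA (hodd v hv ((hN v hv).1 hvN))
    exact ⟨s, mem_decomp_of_inertia hs, h⟩
  real := by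
    obtain ⟨c, ι, hc⟩ := exists_conj
    exact ⟨c, ι, hc, (rbE_conj E hWE hΔ hc).2.2⟩
  surj := by
    intro m m' hm
    refine rbE_surjective E hWE hnr ?_ ?_
    · rintro ⟨r, hr⟩
      have h3 : ((W.Δ : ℤ) : ℚ) < 0 := by exact_mod_cast hΔ
      have h4 : 0 ≤ r * r := mul_self_nonneg r
      linarith
    · intro h0
      have h3 := congrArg Matrix.det hm
      rw [Matrix.det_mul, h0, zero_mul, Matrix.det_one] at h3
      exact zero_ne_one h3

/-- **Theorem Z, step 1, for elliptic curves.** -/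
theorem selmer_EC (hl₀ : ∃ l : ℕ, l.Prime ∧ l ≠ 2 ∧ (l : ℤ) ∣ W.Δ ∧ ¬ (l : ℤ) ∣ W.c₄) :
    ∃ r : ℕ, ∀ k : ℕ, ∃ Q : Finset ℕ, Q.card ≤ r ∧ ZThm.SelZero (rbE E) N Q ∧ ∀ q ∈ Q,
      q.Prime ∧ ¬ q ∣ N ∧ ((2 : ℤ) ^ k ∣ (q : ℤ) - 1) ∧ ((2 : ℤ) ^ k ∣ W.apOfModel q - 2) ∧
      (∀ A : ValuationSubring Qb, A.LiesOverPrime q → ∀ Φ, A.IsFrobeniusAt Φ q →
        rbE E Φ ≠ 1) := by
  have H := rbHyp_EC E hWE hΔ hodd h2 hnr hN0 hN
  obtain ⟨l, hl, hl2, hlΔ, hlc⟩ := hl₀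
  obtain ⟨B, hB⟩ := Frob.exists_liesOverPrime Qb hl
  obtain ⟨g₀, hg₀, -, -, hg₀'⟩ := exists_inertia_rbE E hWE hl hB (hodd l hl hlΔ)
  have hg₀u := repE_inertia_mult E 2 hWE hl hB hl2 hlΔ hlc hg₀ hg₀
  have hns : NonScalar E 2 := nonScalar_of_rbE E hg₀'
  obtain ⟨r, hr⟩ := selmer_main H
  refine ⟨r, fun k => ?_⟩
  obtain ⟨Q, hQc, hQz, hQ⟩ := hr (k + 1) (Nat.succ_ne_zero k) (RkE E (k + 1))
    (RkE_red E (Nat.succ_ne_zero k)) (RkE_smooth E (k + 1)) ⟨g₀, RkE_unip E hg₀u, hg₀'⟩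
  refine ⟨Q, hQc, hQz, fun q hq => ?_⟩
  obtain ⟨hqp, hqN, hqA⟩ := hQ q hq
  have hg : W.IsGoodPrimeFor q := fun h => hqN ((hN q hqp).2 h)
  have hq2 : q ≠ 2 := by
    rintro rfl
    exact hqN H.even
  obtain ⟨A, hA⟩ := Frob.exists_liesOverPrime Qb hqp
  obtain ⟨Φ, hΦ⟩ := Frob.exists_isFrobeniusAt (L := Qb) hqp hA
  obtain ⟨a1, a2⟩ := (hqA A hA).2 Φ hΦ
  rw [← RkE_red E (Nat.succ_ne_zero k)] at a2
  obtain ⟨ht, hd⟩ := trace_det_unip (Nat.succ_ne_zero k) a1 a2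
  rw [RkE_trace, trE_frob E 2 hWE hns hqp hA hq2 hg hΦ, map_intCast] at ht
  have hcyc : cycE 2 Φ = (q : ℤ_[2]) := cyc_frobenius (p_mem 2) hqp hq2 hA hΦ
  rw [RkE_det, detE, det_eq_cyc E 2 hWE hns, hcyc, map_natCast] at hd
  have hpow : (2 : ℤ) ^ k ∣ (((2 ^ (k + 1) : ℕ)) : ℤ) := by
    push_cast
    exact pow_dvd_pow 2 (Nat.le_succ k)
  refine ⟨hqp, hqN, hpow.trans ?_, hpow.trans ?_, fun A hA Φ hΦ => ((hqA A hA).2 Φ hΦ).2⟩
  · rw [← ZMod.intCast_zmod_eq_zero_iff_dvd]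
    push_cast
    rw [hd, sub_self]
  · rw [← ZMod.intCast_zmod_eq_zero_iff_dvd]
    push_cast
    rw [ht, sub_self]

end rep

end Fermat.Agent.ZSel
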