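import Fermat.Agent.ZSel.Group
import Fermat.Agent.PT.Cup
import Fermat.Agent.PTLocal.LF

/-!
# Theorem Z, step 1: the module `𝔽₂²`, the determinant pairing and isotropy
-/

set_option autoImplicit false

namespace Fermat.Agent.ZSel

open Fermat.Agent.PT Fermat.Agent.PTLocal

section

variable {G Γ : Type*} [Group G] [Group Γ] (rb : G →* M2 (ZMod 2))

/-- the action on `𝔽₂²` -/
def vAct : Act G V2 where
  toFun g := (Matrix.mulVecLin (rb g)).toAddMonoidHom
  map_one' := by
    apply AddMonoidHom.ext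
    intro x
    show (rb 1).mulVec x = x
    rw [map_one, Matrix.one_mulVec]
  map_mul' g h := by
    apply AddMonoidHom.ext
    intro x
    show (rb (g * h)).mulVec x = (rb g).mulVec ((rb h).mulVec x)
    rw [map_mul, Matrix.mulVec_mulVec]

theorem vAct_apply (g : G) (x : V2) : vAct rb g x = (rb g).mulVec x := rfl

/-- the determinant form -/
def det2 : V2 →+ V2 →+ ZMod 2 where
  toFun x :=
    { toFun := fun y => x 0 * y 1 + x 1 * y 0
      map_zero' := by simp
      map_add' := fun y z => by simp only [Pi.add_apply]; ring }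
  map_zero' := by ext y; simp
  map_add' x y := by
    apply AddMonoidHom.ext
    intro z
    show (x + y) 0 * z 1 + (x + y) 1 * z 0 = (x 0 * z 1 + x 1 * z 0) + (y 0 * z 1 + y 1 * z 0)
    simp only [Pi.add_apply]; ring

theorem det2_apply (x y : V2) : det2 x y = x 0 * y 1 + x 1 * y 0 := rfl

theorem det2_mulVec (m : M2 (ZMod 2)) (x y : V2) :
    det2 (m.mulVec x) (m.mulVec y) = m.det * det2 x y := by
  rw [det2_apply, det2_apply, Matrix.det_fin_two]
  simp only [Matrix.mulVec, dotProduct, Fin.sum_univ_two]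
  generalize m 0 0 = a
  generalize m 0 1 = b
  generalize m 1 0 = c
  generalize m 1 1 = d
  generalize x 0 = e
  generalize x 1 = f
  generalize y 0 = g
  generalize y 1 = h
  revert a b c d e f g h
  decide

theorem det_rb (g : G) : (rb g).det = 1 := by
  have h1 : (rb g).det * (rb g⁻¹).det = 1 := by
    rw [← Matrix.det_mul, ← map_mul, mul_inv_cancel, map_one, Matrix.det_one]
  generalize (rb g).det = a at *
  generalize (rb g⁻¹).det = b at *
  revert a b
  decide

/-- the determinant pairing -/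
def detP : Pairing (vAct rb) (vAct rb) (trivAct G (ZMod 2)) where
  m := det2
  comm g x y := by
    rw [vAct_apply, vAct_apply, det2_mulVec, det_rb, one_mul]
    rfl

/-- two vectors fixed by the same nontrivial matrix are proportional -/
theorem det2_eq_zero {T : M2 (ZMod 2)} (hT : T ≠ 1) {x y : V2} (hx : T.mulVec x = x)
    (hy : T.mulVec y = y) : det2 x y = 0 := by
  have hT' : ¬ (T 0 0 = 1 ∧ T 0 1 = 0 ∧ T 1 0 = 0 ∧ T 1 1 = 1) := by
    rintro ⟨a, b, c, d⟩
    apply hT
    exact M2_ext a b c d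
  have x0 := congrFun hx 0
  have x1 := congrFun hx 1
  have y0 := congrFun hy 0
  have y1 := congrFun hy 1
  simp only [Matrix.mulVec, dotProduct, Fin.sum_univ_two] at x0 x1 y0 y1
  rw [det2_apply]
  clear hx hy hT
  generalize T 0 0 = a at *
  generalize T 0 1 = b at *
  generalize T 1 0 = c at *
  generalize T 1 1 = d at *
  generalize x 0 = e at *
  generalize x 1 = f at *
  generalize y 0 = g at *
  generalize y 1 = h at *
  revert a b c d e f g h
  decide

variable {L : Levels G}

/-- translating a cocycle by a coboundary -/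
theorem mk_add_d0 {A : Type*} [AddCommGroup A] {ρ : Act G A} (f f' : Z1 L ρ) (a : A)
    (h : ∀ g, (f' : G → A) g = (f : G → A) g + (ρ g a - a)) : H1.mk L ρ f' = H1.mk L ρ f := by
  rw [← sub_eq_zero, ← map_sub, H1.mk_eq_zero]
  refine ⟨a, ?_⟩
  ext g
  rw [d0_apply, AddSubgroup.coe_sub, Pi.sub_apply, h]
  abel

theorem d0_mem_Z1 {A : Type*} [AddCommGroup A] {ρ : Act G A} (hρ : Smooth L ρ) (a : A) :
    (fun g => ρ g a - a) ∈ Z1 L ρ := by
  rw [mem_Z1']
  refine ⟨d0_mem_C1 hρ a, fun g h => ?_⟩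
  rw [act_mul, map_sub]
  abel

/-- isotropy -/
theorem cup_isotropic (hsm : Smooth L (vAct rb)) (f h : Z1 L (vAct rb)) {T : M2 (ZMod 2)}
    (hT : T ≠ 1) (m m' : V2)
    (hf : ∀ g, T.mulVec ((f : G → V2) g + ((rb g).mulVec m - m)) =
      (f : G → V2) g + ((rb g).mulVec m - m))
    (hh : ∀ g, T.mulVec ((h : G → V2) g + ((rb g).mulVec m' - m')) =
      (h : G → V2) g + ((rb g).mulVec m' - m'))
    (hh' : ∀ s g, (rb s).mulVec ((h : G → V2) g + ((rb g).mulVec m' - m')) =
      (h : G → V2) g + ((rb g).mulVec m' - m')) :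
    (detP rb).cup hsm (H1.mk L _ f) (H1.mk L _ h) = 0 := by
  set f' : Z1 L (vAct rb) := f + ⟨_, d0_mem_Z1 hsm m⟩ with hf'
  set h' : Z1 L (vAct rb) := h + ⟨_, d0_mem_Z1 hsm m'⟩ with hh''
  rw [← mk_add_d0 f f' m (fun _ => rfl), ← mk_add_d0 h h' m' (fun _ => rfl), Pairing.cup_mk]
  have h0 : (detP rb).cz hsm f' h' = 0 := by
    apply Subtype.ext
    ext x y
    rw [Pairing.coe_cz]
    show det2 ((f : G → V2) x + ((rb x).mulVec m - m))
      ((rb x).mulVec ((h : G → V2) y + ((rb y).mulVec m' - m'))) = 0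
    rw [hh']
    exact det2_eq_zero hT (hf x) (hh y)
  rw [h0, map_zero]

/-- cohomology of a group of order two acting freely -/
theorem cup_of_involution (hsm : Smooth L (vAct rb)) (f h : Z1 L (vAct rb)) {c : G}
    (hc : rb c ≠ 1) (hcc : c * c = 1) (hall : ∀ g, g = 1 ∨ g = c) :
    (detP rb).cup hsm (H1.mk L _ f) (H1.mk L _ h) = 0 := by
  obtain ⟨hfL, hf⟩ := mem_Z1'.1 f.2
  have h1 : (f : G → V2) 1 = 0 := by
    have := hf 1 1
    rw [mul_one, act_one] at this
    exact left_eq_add.1 this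
  have h2 : (f : G → V2) c + (rb c).mulVec ((f : G → V2) c) = 0 := by
    have := hf c c
    rw [hcc, h1] at this
    exact this.symm
  have h3 : rb c * rb c = 1 := by rw [← map_mul, hcc, map_one]
  obtain ⟨m, hm⟩ : ∃ m : V2, (f : G → V2) c = (rb c).mulVec m - m := by
    set T := rb c with hTdef
    set v := (f : G → V2) c with hv
    have hT' : ¬ (T 0 0 = 1 ∧ T 0 1 = 0 ∧ T 1 0 = 0 ∧ T 1 1 = 1) := by
      rintro ⟨a, b, c', d⟩
      apply hc
      exact M2_ext a b c' d
    have hq : (T 0 0 * T 0 0 + T 0 1 * T 1 0 = 1 ∧ T 0 0 * T 0 1 + T 0 1 * T 1 1 = 0) ∧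
        (T 1 0 * T 0 0 + T 1 1 * T 1 0 = 0 ∧ T 1 0 * T 0 1 + T 1 1 * T 1 1 = 1) := by
      have e : ∀ i j, (T * T) i j = T i 0 * T 0 j + T i 1 * T 1 j := fun i j => by
        rw [Matrix.mul_apply, Fin.sum_univ_two]
      rw [← e, ← e, ← e, ← e, h3]
      exact ⟨⟨rfl, rfl⟩, ⟨rfl, rfl⟩⟩
    have v0 := congrFun h2 0
    have v1 := congrFun h2 1
    simp only [Matrix.mulVec, dotProduct, Fin.sum_univ_two, Pi.add_apply, Pi.zero_apply] at v0 v1
    have hex : ∃ x y : ZMod 2, v 0 = (T 0 0 * x + T 0 1 * y) - x ∧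
        v 1 = (T 1 0 * x + T 1 1 * y) - y := by
      clear h2 h3 hc
      clear_value T v
      generalize T 0 0 = a at *
      generalize T 0 1 = b at *
      generalize T 1 0 = c' at *
      generalize T 1 1 = d at *
      generalize v 0 = e at *
      generalize v 1 = f' at *
      revert a b c' d e f'
      decide
    obtain ⟨x, y, hx, hy⟩ := hex
    refine ⟨![x, y], ?_⟩
    funext i
    fin_cases i
    · simpa [Matrix.mulVec, dotProduct, Fin.sum_univ_two] using hx
    · simpa [Matrix.mulVec, dotProduct, Fin.sum_univ_two] using hy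
  have h4 : H1.mk L _ f = 0 := by
    rw [H1.mk_eq_zero]
    refine ⟨m, ?_⟩
    ext1 g
    rw [d0_apply, vAct_apply]
    rcases hall g with rfl | rfl
    · rw [map_one, Matrix.one_mulVec, sub_self, h1]
    · exact hm.symm
  rw [h4, map_zero]
  rfl

end

end Fermat.Agent.ZSel
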