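import Fermat.Agent.ZSel.Level
import Fermat.Agent.CFT6.UnrProc

/-!
# Theorem Z, step 1: the local Galois group is dense in the decomposition group
-/

set_option autoImplicit false

open NumberField IsDedekindDomain Module Fermat.Agent.CFT Fermat.Agent.Frob Fermat.Agent.CFT6
open scoped Pointwise

namespace Fermat.Agent.ZSel

section proc

variable {q : Nat.Primes} {Ω : Type*} [Field Ω] [CharZero Ω] [IsGalois ℚ Ω] (ι : Ω →+* Cq q)
  {A : ValuationSubring Ω} (hA : ∀ x, x ∈ A.nonunits ↔ ‖ι x‖ < 1)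
  (r : Gq q →* (Ω ≃ₐ[ℚ] Ω)) (hr : ∀ τ x, ι (r τ x) = τ (ι x))

include hA hr in
/-- the local Galois group is dense in the decomposition group -/
theorem exists_loc (F : IntermediateField ℚ Ω) [FiniteDimensional ℚ F] (σ : Ω ≃ₐ[ℚ] Ω)
    (hσA : σ • A = A) : ∃ g : Gq q, ∀ x ∈ F, r g x = σ x := by
  have hnf : NumberField F := ⟨⟩
  let φ' : Emb F q := ι.comp ((σ : Ω →+* Ω).comp (algebraMap F Ω))
  have h1 : CFT6.place (embF ι F) = CFT6.place φ' := by
    apply HeightOneSpectrum.ext
    ext x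
    let x' : integralClosure ℤ Ω := ⟨((x : F) : Ω), isIntegral_coe x⟩
    have e1 : x ∈ (CFT6.place (embF ι F)).asIdeal ↔ x' ∈ center A := (mem_center_iota ι hA x').symm
    have e2 : x ∈ (CFT6.place φ').asIdeal ↔ σ • x' ∈ center A := (mem_center_iota ι hA (σ • x')).symm
    rw [e1, e2]
    have h2 : center A = σ • center A := by
      rw [← center_smul, hσA]
    conv_rhs => rw [h2]
    exact (Ideal.smul_mem_pointwise_smul_iff).symm
  obtain ⟨τ, hτ⟩ := place_eq_iff.1 h1
  refine ⟨τ, fun x hx => ?_⟩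
  apply ι.injective
  rw [hr]
  exact hτ ⟨x, hx⟩

end proc

end Fermat.Agent.ZSel
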