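import Fermat.Agent.ZSel.Act
import Fermat.Agent.PTC.Levels

/-!
# Theorem Z, step 1: levels of cocycles
-/

set_option autoImplicit false

namespace Fermat.Agent.ZSel

open Fermat.Agent.PT Fermat.Agent.PTLocal Fermat.Agent.PTC

local instance isAlgebraicQbar_zs : Algebra.IsAlgebraic ℚ (AlgebraicClosure ℚ) :=
  AlgebraicClosure.isAlgebraic ℚ
local instance isAlgClosureQbar_zs : IsAlgClosure ℚ (AlgebraicClosure ℚ) :=
  ⟨inferInstance, inferInstance⟩
local instance normalQbar_zs : Normal ℚ (AlgebraicClosure ℚ) :=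
  IsAlgClosure.normal ℚ (AlgebraicClosure ℚ)
local instance isGaloisQbar_zs : IsGalois ℚ (AlgebraicClosure ℚ) := ⟨⟩

/-- an open subgroup containing the inertia groups outside `S` comes from a field unramified
outside `S` -/
theorem exists_unr_field {S : Finset Nat.Primes} (K : Subgroup PTC.GQ)
    (hK : ∃ L : IntermediateField ℚ (AlgebraicClosure ℚ), FiniteDimensional ℚ L ∧
      L.fixingSubgroup ≤ K)
    (hin : ∀ q : Nat.Primes, q ∉ S → ∀ A : ValuationSubring (AlgebraicClosure ℚ),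
      A.LiesOverPrime (q : ℕ) → A.inertiaSubgroupIn ℚ ≤ K) :
    ∃ F : IntermediateField ℚ (AlgebraicClosure ℚ), F.IsUnramifiedOutside S ∧
      F.fixingSubgroup = K := by
  obtain ⟨L, hL, hle⟩ := hK
  have h1 := fixing_fixed K L hL hle
  refine ⟨IntermediateField.fixedField K, ⟨?_, ?_⟩, h1⟩
  · have hfl : IntermediateField.fixedField K ≤ L := by
      intro x hx
      rw [← InfiniteGalois.fixedField_fixingSubgroup L, IntermediateField.mem_fixedField_iff]
      intro f hf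
      exact (IntermediateField.mem_fixedField_iff _ _).1 hx f (hle hf)
    exact FiniteDimensional.of_injective (IntermediateField.inclusion hfl).toLinearMap
      (IntermediateField.inclusion_injective hfl)
  · intro q hq A hA
    rw [h1]
    exact hin q hq A hA

variable (rb : PTC.GQ →* M2 (ZMod 2)) {ξ : PTC.GQ → V2}
  (hcoc : ∀ g h, ξ (g * h) = ξ g + (rb g).mulVec (ξ h))

/-- the kernel of a cocycle -/
def cocKer : Subgroup PTC.GQ where
  carrier := {g | rb g = 1 ∧ ξ g = 0}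
  one_mem' := ⟨map_one _, coc_one rb hcoc⟩
  mul_mem' := by
    rintro a b ⟨ha, ha'⟩ ⟨hb, hb'⟩
    exact ⟨by rw [map_mul, ha, hb, one_mul], by rw [hcoc, ha', hb', Matrix.mulVec_zero, add_zero]⟩
  inv_mem' := by
    rintro a ⟨ha, ha'⟩
    have h1 : rb a⁻¹ = 1 := by
      have : rb a⁻¹ * rb a = 1 := by rw [← map_mul, inv_mul_cancel, map_one]
      rwa [ha, mul_one] at this
    refine ⟨h1, ?_⟩
    have h2 := hcoc a⁻¹ a
    rw [inv_mul_cancel, coc_one rb hcoc, h1, ha', Matrix.mulVec_zero, add_zero] at h2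
    exact h2.symm

/-- a common level for the representation and the cocycle -/
theorem exists_level {S : Finset Nat.Primes}
    (hrsm : ∃ L : IntermediateField ℚ (AlgebraicClosure ℚ), FiniteDimensional ℚ L ∧
      ∀ σ ∈ L.fixingSubgroup, rb σ = 1)
    (hrin : ∀ q : Nat.Primes, q ∉ S → ∀ A : ValuationSubring (AlgebraicClosure ℚ),
      A.LiesOverPrime (q : ℕ) → ∀ s ∈ A.inertiaSubgroupIn ℚ, rb s = 1)
    (hsm : ∃ L : IntermediateField ℚ (AlgebraicClosure ℚ), FiniteDimensional ℚ L ∧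
      ∀ σ ∈ L.fixingSubgroup, ξ σ = 0)
    (hin : ∀ q : Nat.Primes, q ∉ S → ∀ A : ValuationSubring (AlgebraicClosure ℚ),
      A.LiesOverPrime (q : ℕ) → ∀ s ∈ A.inertiaSubgroupIn ℚ, ξ s = 0) :
    ∃ F : IntermediateField ℚ (AlgebraicClosure ℚ), F.IsUnramifiedOutside S ∧
      F.fixingSubgroup = cocKer rb hcoc := by
  obtain ⟨L, hL, h1⟩ := hrsm
  obtain ⟨L', hL', h2⟩ := hsm
  refine exists_unr_field (cocKer rb hcoc) ⟨L ⊔ L', IntermediateField.finiteDimensional_sup L L',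
    fun σ hσ => ?_⟩ (fun q hq A hA s hs => ⟨hrin q hq A hA s hs, hin q hq A hA s hs⟩)
  rw [IntermediateField.fixingSubgroup_sup] at hσ
  exact ⟨h1 σ hσ.1, h2 σ hσ.2⟩

/-- smoothness of the representation -/
theorem smooth_vAct {S : Finset Nat.Primes}
    (hrsm : ∃ L : IntermediateField ℚ (AlgebraicClosure ℚ), FiniteDimensional ℚ L ∧
      ∀ σ ∈ L.fixingSubgroup, rb σ = 1)
    (hrin : ∀ q : Nat.Primes, q ∉ S → ∀ A : ValuationSubring (AlgebraicClosure ℚ),
      A.LiesOverPrime (q : ℕ) → ∀ s ∈ A.inertiaSubgroupIn ℚ, rb s = 1) :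
    Smooth (sL S) (vAct rb) := by
  have hc0 : ∀ g h : PTC.GQ, (fun _ => (0 : V2)) (g * h) = (fun _ => (0 : V2)) g +
      (rb g).mulVec ((fun _ => (0 : V2)) h) := fun g h => by
    show (0 : V2) = 0 + (rb g).mulVec 0
    rw [Matrix.mulVec_zero, add_zero]
  obtain ⟨F, hF, hFK⟩ := exists_level rb (ξ := fun _ => 0) hc0 hrsm hrin
    ⟨⊥, inferInstance, fun _ _ => rfl⟩ (fun _ _ _ _ _ _ => rfl)
  obtain ⟨N, hN, hle⟩ := exists_sL_le hF
  intro a
  refine ⟨N, hN, fun s hs => ?_⟩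
  have h1 := hle hs
  rw [hFK] at h1
  rw [vAct_apply, h1.1, Matrix.one_mulVec]

include hcoc in
/-- the cocycle in the level formalism -/
theorem mem_Z1_sL {S : Finset Nat.Primes}
    (hrsm : ∃ L : IntermediateField ℚ (AlgebraicClosure ℚ), FiniteDimensional ℚ L ∧
      ∀ σ ∈ L.fixingSubgroup, rb σ = 1)
    (hrin : ∀ q : Nat.Primes, q ∉ S → ∀ A : ValuationSubring (AlgebraicClosure ℚ),
      A.LiesOverPrime (q : ℕ) → ∀ s ∈ A.inertiaSubgroupIn ℚ, rb s = 1)
    (hsm : ∃ L : IntermediateField ℚ (AlgebraicClosure ℚ), FiniteDimensional ℚ L ∧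
      ∀ σ ∈ L.fixingSubgroup, ξ σ = 0)
    (hin : ∀ q : Nat.Primes, q ∉ S → ∀ A : ValuationSubring (AlgebraicClosure ℚ),
      A.LiesOverPrime (q : ℕ) → ∀ s ∈ A.inertiaSubgroupIn ℚ, ξ s = 0) :
    ξ ∈ Z1 (sL S) (vAct rb) := by
  obtain ⟨F, hF, hFK⟩ := exists_level rb hcoc hrsm hrin hsm hin
  obtain ⟨N, hN, hle⟩ := exists_sL_le hF
  rw [mem_Z1']
  refine ⟨⟨N, hN, fun g s hs => ?_⟩, hcoc⟩
  have h1 := hle hs
  rw [hFK] at h1
  rw [hcoc, h1.2, Matrix.mulVec_zero, add_zero]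

end Fermat.Agent.ZSel
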