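import Fermat.Agent.PTC.Kum
import Fermat.Agent.ZSel.Level

/-!
# Theorem Z, step 1: finiteness of the space of cocycles
-/

set_option autoImplicit false

open NumberField

namespace Fermat.Agent.ZSel

open Fermat.Agent.PT Fermat.Agent.PTLocal Fermat.Agent.PTC Fermat.Agent.PTGlob Fermat.Agent.CFT
  Fermat.Agent.CFT6

/-- the index of the `p`-th powers in `K_S` is finite. -/
theorem relIndex_KS_ne_zero' {K : Type*} [Field K] [NumberField K] {p : ℕ} (hp0 : p ≠ 0)
    (S : Finset Nat.Primes) :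
    (powMonoidHom p : Kˣ →* Kˣ).range.relIndex (KS K p S) ≠ 0 := by
  have hle : (powMonoidHom p : Kˣ →* Kˣ).range ⊔ SUnits K S ≤ KS K p S :=
    sup_le (pow_le_KS p S) (SUnits_le_KS p S)
  rw [← Subgroup.relIndex_mul_relIndex _ _ _ le_sup_left hle]
  refine mul_ne_zero ?_ ?_
  · rw [Subgroup.relIndex_sup_left, Subgroup.relIndex, pow_subgroupOf_SUnits p S hp0]
    have h1 : Group.FG (SUnits K S) := by
      rw [SUnits_eq]
      have h2 : AddGroup.FG (Additive ((above K S).unit K)) :=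
        Module.Finite.iff_addGroup_fg.1 inferInstance
      exact GroupFG.iff_add_fg.2 h2
    exact (Subgroup.finiteIndex_range_powMonoidHom_of_fg (SUnits K S) hp0).index_ne_zero
  · rw [Subgroup.relIndex, ← rootCl_ker p S hp0, Subgroup.index_ker,
      MonoidHom.range_eq_top.2 (rootCl_surjective p S hp0), Subgroup.card_top]
    exact Nat.card_pos.ne'

section fin

-- the frozen algebra structure on `ℚ̄`, and the induced ones on subfields
attribute [-instance] DivisionRing.toRatAlgebra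
noncomputable local instance instAlgebraQbZ : Algebra ℚ (AlgebraicClosure ℚ) :=
  DivisionRing.toRatAlgebra

variable {S : Finset Nat.Primes}

theorem muW_two : muW 2 = ⊤ := by
  rw [eq_top_iff]
  intro g _
  exact Subsingleton.elim _ _

theorem finite_chi (hpS : ExtCitation.pPrime 2 ∈ S) {V : Subgroup PTC.GQ}
    (hV : IsOpenSub (sL S) V) : Finite (Chi 2 ((sL S).sub V)) := by
  obtain ⟨ζ, hζ⟩ := PTGlob.exists_zeta (p := 2) hpS
  have hVW : V ≤ muW 2 := by rw [muW_two]; exact le_top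
  have h1 := card_H1_trivAct (lgV hV) hζ (fix_zeta hζ hV hVW) (exists_pPrime hpS)
  have h2 : Finite (H1 ((sL S).sub V) (trivAct V (ZMod 2))) := by
    apply Nat.finite_of_card_ne_zero
    rw [h1]
    exact relIndex_KS_ne_zero' two_ne_zero S
  exact Finite.of_injective _ (chi_mk_injective (p := 2) (L := (sL S).sub V))

end fin

variable {S : Finset Nat.Primes}

/-- **Finiteness of the space of cocycles.** -/
theorem finite_Z1 (hpS : ExtCitation.pPrime 2 ∈ S) (rb : PTC.GQ →* M2 (ZMod 2))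
    (hsm : Smooth (sL S) (vAct rb)) : Finite (Z1 (sL S) (vAct rb)) := by
  let U : Subgroup PTC.GQ := rb.ker
  have hU : IsOpenSub (sL S) U := by
    obtain ⟨N, hN, h⟩ := hsm.exists_level (Set.toFinite (Set.univ : Set V2))
    refine ⟨N, hN, fun s hs => ?_⟩
    rw [MonoidHom.mem_ker]
    ext i j
    have h1 := congrFun (h (Pi.single j 1) (Set.mem_univ _) s hs) i
    rw [vAct_apply, Matrix.mulVec_single_one] at h1
    rw [← Matrix.one_mulVec (Pi.single j (1 : ZMod 2)), Matrix.mulVec_single_one] at h1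
    exact h1
  have hfc := finite_chi hpS hU
  have hUf : U.FiniteIndex := hU.finiteIndex
  have hmem : ∀ (f : Z1 (sL S) (vAct rb)) (i : Fin 2),
      (fun u : U => (f : PTC.GQ → V2) (u : PTC.GQ) i) ∈ Z1 ((sL S).sub U) (trivAct U (ZMod 2)) := by
    intro f i
    obtain ⟨⟨N, hN, hfN⟩, hf⟩ := mem_Z1'.1 f.2
    rw [mem_Z1']
    refine ⟨⟨_, ⟨N, hN, rfl⟩, fun g s hs => ?_⟩, fun g h => ?_⟩
    · exact congrFun (hfN (g : PTC.GQ) (s : PTC.GQ) hs) i
    · show (f : PTC.GQ → V2) ((g : PTC.GQ) * (h : PTC.GQ)) i = _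
      rw [hf, vAct_apply, show rb (g : PTC.GQ) = 1 from g.2, Matrix.one_mulVec]
      rfl
  let Φ : Z1 (sL S) (vAct rb) → ((PTC.GQ ⧸ U) → V2) × (Fin 2 → Chi 2 ((sL S).sub U)) := fun f =>
    (fun c => (f : PTC.GQ → V2) c.out, fun i => ⟨_, hmem f i⟩)
  refine Finite.of_injective Φ (fun f f' h => ?_)
  have h1 : ∀ c : PTC.GQ ⧸ U, (f : PTC.GQ → V2) c.out = (f' : PTC.GQ → V2) c.out := fun c =>
    congrFun (congrArg Prod.fst h) c
  have h2 : ∀ u : U, (f : PTC.GQ → V2) (u : PTC.GQ) = (f' : PTC.GQ → V2) (u : PTC.GQ) := by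
    intro u
    funext i
    exact congrFun (congrArg Subtype.val (congrFun (congrArg Prod.snd h) i)) u
  apply Subtype.ext
  ext1 g
  obtain ⟨u, hu⟩ := QuotientGroup.mk_out_eq_mul U g
  have h3 : g = (Quotient.out (g : PTC.GQ ⧸ U)) * ((u⁻¹ : U) : PTC.GQ) := by
    rw [hu, Subgroup.coe_inv, mul_inv_cancel_right]
  have hf := (mem_Z1'.1 f.2).2
  have hf' := (mem_Z1'.1 f'.2).2
  rw [h3, hf, hf', h1, h2]

end Fermat.Agent.ZSel
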