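import Mathlib

/-!
# Theorem Z, step 1: group theory in `GL₂(ℤ/2^k)`
-/

set_option autoImplicit false

namespace Fermat.Agent.ZSel

open Matrix

/-- `2 × 2` matrices -/
abbrev M2 (R : Type*) := Matrix (Fin 2) (Fin 2) R

/-- `𝔽₂²` -/
abbrev V2 := Fin 2 → ZMod 2

theorem M2_ext {R : Type*} {X Y : M2 R} (h00 : X 0 0 = Y 0 0) (h01 : X 0 1 = Y 0 1)
    (h10 : X 1 0 = Y 1 0) (h11 : X 1 1 = Y 1 1) : X = Y := by
  ext i j
  fin_cases i <;> fin_cases j <;> assumption

theorem eta2 {R : Type*} (X : M2 R) : X = !![X 0 0, X 0 1; X 1 0, X 1 1] :=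
  M2_ext rfl rfl rfl rfl

/-- order three: `z x = x` implies `x = 0` -/
theorem no_fixed {w : M2 (ZMod 2)} (hw : w * w + w + 1 = 0) {x : V2}
    (h : w.mulVec x = x) : x = 0 := by
  have h1 : (w * w + w + 1).mulVec x = x := by
    rw [Matrix.add_mulVec, Matrix.add_mulVec, ← Matrix.mulVec_mulVec, h, h, Matrix.one_mulVec]
    funext i
    have : ∀ a : ZMod 2, a + a + a = a := by decide
    exact this _
  rw [hw, Matrix.zero_mulVec] at h1
  exact h1.symm

/-- an element of order three -/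
def zz : M2 (ZMod 2) := !![0, 1; 1, 1]

theorem zz_spec : zz * zz + zz + 1 = 0 := by decide

theorem zz_det : zz.det = 1 := by decide

/-- subsets of `M₂(𝔽₂)` stable under addition and conjugation -/
theorem trace_zero_mem {D : Set (M2 (ZMod 2))} (hadd : ∀ X ∈ D, ∀ Y ∈ D, X + Y ∈ D)
    (hconj : ∀ X ∈ D, ∀ m m' : M2 (ZMod 2), m * m' = 1 → m * X * m' ∈ D) {n : M2 (ZMod 2)}
    (hn : n ∈ D) (hn0 : n ≠ 0) (hn2 : n * n = 0) {Y : M2 (ZMod 2)} (hY : Y 0 0 = Y 1 1) :
    Y ∈ D := by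
  have h3 : (!![0, 1; 0, 0] : M2 (ZMod 2)) ∈ D ∧ (!![0, 0; 1, 0] : M2 (ZMod 2)) ∈ D ∧
      (!![1, 1; 1, 1] : M2 (ZMod 2)) ∈ D := by
    have hcase : n = !![0, 1; 0, 0] ∨ n = !![0, 0; 1, 0] ∨ n = !![1, 1; 1, 1] := by
      rw [eta2 n] at hn0 hn2 ⊢
      generalize n 0 0 = a at *
      generalize n 0 1 = b at *
      generalize n 1 0 = c at *
      generalize n 1 1 = d at *
      clear hconj hadd hn hY
      revert a b c d
      decide
    have k1 : (zz * !![0, 1; 0, 0] * (zz * zz) : M2 (ZMod 2)) = !![0, 0; 1, 0] ∨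
      (zz * !![0, 1; 0, 0] * (zz * zz) : M2 (ZMod 2)) = !![1, 1; 1, 1] := by decide
    have z3 : (zz * (zz * zz) : M2 (ZMod 2)) = 1 := by decide
    have z3' : ((zz * zz) * zz : M2 (ZMod 2)) = 1 := by decide
    rcases hcase with rfl | rfl | rfl
    · have e1 := hconj _ hn _ _ z3
      have e2 := hconj _ hn _ _ z3'
      refine ⟨hn, ?_, ?_⟩
      · convert e1 using 1 <;> decide
      · convert e2 using 1 <;> decide
    · have e1 := hconj _ hn _ _ z3
      have e2 := hconj _ hn _ _ z3'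
      refine ⟨?_, hn, ?_⟩
      · convert e2 using 1 <;> decide
      · convert e1 using 1 <;> decide
    · have e1 := hconj _ hn _ _ z3
      have e2 := hconj _ hn _ _ z3'
      refine ⟨?_, ?_, hn⟩
      · convert e1 using 1 <;> decide
      · convert e2 using 1 <;> decide
  obtain ⟨h1, h2, h4⟩ := h3
  have h0 : (0 : M2 (ZMod 2)) ∈ D := by
    have := hadd _ h1 _ h1
    convert this using 1
    decide
  have hmul : ∀ (c : ZMod 2) (X : M2 (ZMod 2)), X ∈ D → c • X ∈ D := by
    intro c X hX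
    have : c = 0 ∨ c = 1 := by revert c; decide
    rcases this with rfl | rfl
    · rw [zero_smul]; exact h0
    · rw [one_smul]; exact hX
  have h5 := hadd _ (hadd _ (hmul (Y 0 1 + Y 0 0) _ h1) _ (hmul (Y 1 0 + Y 0 0) _ h2)) _
    (hmul (Y 0 0) _ h4)
  convert h5 using 1
  rw [eta2 Y]
  have h6 : Y 1 1 = Y 0 0 := hY.symm
  rw [h6]
  simp only [Matrix.of_apply, Matrix.cons_val', Matrix.cons_val_zero, Matrix.cons_val_one,
    Matrix.cons_val_fin_one]
  generalize Y 0 0 = a
  generalize Y 0 1 = b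
  generalize Y 1 0 = c
  revert a b c
  decide

/-- in characteristic two: choice of a translate -/
theorem exists_translate {m : M2 (ZMod 2)} (hm : m ≠ 1) (hm2 : (m - 1) * (m - 1) = 0) (v : V2) :
    ∃ y : V2, ∀ x, v + m.mulVec y ≠ m.mulVec x - x := by
  have h : ∃ y0 y1 : ZMod 2, ∀ x0 x1 : ZMod 2, ¬ (v 0 + (m 0 0 * y0 + m 0 1 * y1) =
      (m 0 0 * x0 + m 0 1 * x1) - x0 ∧ v 1 + (m 1 0 * y0 + m 1 1 * y1) =
      (m 1 0 * x0 + m 1 1 * x1) - x1) := by
    have hcase : m = !![1, 1; 0, 1] ∨ m = !![1, 0; 1, 1] ∨ m = !![0, 1; 1, 0] := by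
      rw [eta2 m] at hm hm2 ⊢
      generalize m 0 0 = a at *
      generalize m 0 1 = b at *
      generalize m 1 0 = c at *
      generalize m 1 1 = d at *
      revert a b c d
      decide
    generalize v 0 = e at *
    generalize v 1 = f at *
    rcases hcase with rfl | rfl | rfl <;>
    · simp only [Matrix.of_apply, Matrix.cons_val', Matrix.cons_val_zero, Matrix.cons_val_one,
        Matrix.cons_val_fin_one]
      clear hm hm2
      revert e f
      decide
  obtain ⟨y0, y1, h⟩ := h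
  refine ⟨![y0, y1], fun x hx => h (x 0) (x 1) ?_⟩
  have e0 := congrFun hx 0
  have e1 := congrFun hx 1
  simp only [Matrix.mulVec, dotProduct, Fin.sum_univ_two, Pi.add_apply, Pi.sub_apply,
    Matrix.cons_val_zero, Matrix.cons_val_one, Matrix.cons_val_fin_one] at e0 e1
  exact ⟨e0, e1⟩

/-- transitivity on nonzero vectors -/
theorem exists_move {v w : V2} (hv : v ≠ 0) (hw : w ≠ 0) :
    ∃ m m' : M2 (ZMod 2), m * m' = 1 ∧ m.mulVec v = w := by
  have h : ∃ a b c d : ZMod 2, (a * d - b * c = 1) ∧ a * v 0 + b * v 1 = w 0 ∧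
      c * v 0 + d * v 1 = w 1 := by
    have hv' : v 0 ≠ 0 ∨ v 1 ≠ 0 := by
      by_contra hcon
      push Not at hcon
      apply hv
      funext i
      fin_cases i
      · exact hcon.1
      · exact hcon.2
    have hw' : w 0 ≠ 0 ∨ w 1 ≠ 0 := by
      by_contra hcon
      push Not at hcon
      apply hw
      funext i
      fin_cases i
      · exact hcon.1
      · exact hcon.2
    clear hv hw
    generalize v 0 = v0 at *
    generalize v 1 = v1 at *
    generalize w 0 = w0 at *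
    generalize w 1 = w1 at *
    revert v0 v1 w0 w1
    decide
  obtain ⟨a, b, c, d, h1, h2, h3⟩ := h
  refine ⟨!![a, b; c, d], (!![a, b; c, d] : M2 (ZMod 2)).adjugate, ?_, ?_⟩
  · rw [Matrix.mul_adjugate, Matrix.det_fin_two_of, h1, one_smul]
  · funext i
    fin_cases i
    · simpa [Matrix.mulVec, dotProduct, Fin.sum_univ_two] using h2
    · simpa [Matrix.mulVec, dotProduct, Fin.sum_univ_two] using h3

section group

variable {G : Type*} [Group G] {k : ℕ} (hk : k ≠ 0) (R : G →* M2 (ZMod (2 ^ k)))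
  (rb : G →* M2 (ZMod 2))

/-- reduction modulo two -/
abbrev red2 (hk : k ≠ 0) : ZMod (2 ^ k) →+* ZMod 2 :=
  ZMod.castHom (dvd_pow_self 2 hk) (ZMod 2)

theorem red2_eq_zero {a : ZMod (2 ^ k)} (h : red2 hk a = 0) : ∃ b, a = 2 * b := by
  have h1 : ((a.val : ℕ) : ZMod 2) = 0 := by
    rw [← h]
    have h2 : red2 hk ((a.val : ℕ) : ZMod (2 ^ k)) = ((a.val : ℕ) : ZMod 2) := map_natCast _ _
    rw [← h2, ZMod.natCast_zmod_val]
  rw [ZMod.natCast_eq_zero_iff] at h1
  obtain ⟨b, hb⟩ := h1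
  refine ⟨b, ?_⟩
  calc a = ((a.val : ℕ) : ZMod (2 ^ k)) := (ZMod.natCast_zmod_val a).symm
    _ = 2 * (b : ZMod (2 ^ k)) := by rw [hb]; push_cast; ring

theorem red2_mat_eq_zero {X : M2 (ZMod (2 ^ k))} (h : X.map (red2 hk) = 0) :
    ∃ Z : M2 (ZMod (2 ^ k)), X = (2 : ZMod (2 ^ k)) • Z := by
  have h1 : ∀ i j, ∃ b, X i j = 2 * b := fun i j =>
    red2_eq_zero hk (congrFun (congrFun h i) j)
  choose Z hZ using h1
  refine ⟨Z, ?_⟩
  ext i j
  rw [hZ, Matrix.smul_apply, smul_eq_mul]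

variable (hred : ∀ g, (R g).map (red2 hk) = rb g)
  (hsurj : ∀ m m' : M2 (ZMod 2), m * m' = 1 → ∃ g, rb g = m)
  {ξ : G → V2} (hcoc : ∀ g h, ξ (g * h) = ξ g + (rb g).mulVec (ξ h))

include hcoc in
theorem coc_one : ξ 1 = 0 := by
  have h := hcoc 1 1
  rw [mul_one, map_one, Matrix.one_mulVec] at h
  exact left_eq_add.1 h

include hcoc in
theorem coc_mul {g : G} (hg : rb g = 1) (h : G) : ξ (g * h) = ξ g + ξ h := by
  rw [hcoc, hg, Matrix.one_mulVec]

include hcoc in
theorem coc_conj {h : G} (hh : rb h = 1) (g : G) : ξ (g * h * g⁻¹) = (rb g).mulVec (ξ h) := by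
  have h1 : ξ (g * h * g⁻¹ * g) = ξ (g * h * g⁻¹) + ξ g := by
    apply coc_mul rb hcoc
    rw [map_mul, map_mul, hh, mul_one, ← map_mul, mul_inv_cancel, map_one]
  rw [inv_mul_cancel_right, hcoc, add_comm (ξ g)] at h1
  exact (add_right_cancel h1).symm

include hcoc in
theorem coc_pow {h : G} (hh : rb h = 1) (hξ : ξ h = 0) (n : ℕ) : ξ (h ^ n) = 0 := by
  induction n with
  | zero => rw [pow_zero]; exact coc_one rb hcoc
  | succ n ih =>
    rw [pow_succ, coc_mul rb hcoc (by rw [map_pow, hh, one_pow]), ih, hξ, add_zero]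

theorem pow_unip {A : Type*} [CommRing A] {M : M2 A} (hM : M * M = 0) (n : ℕ) :
    (1 + M) ^ n = 1 + (n : A) • M := by
  induction n with
  | zero => simp
  | succ n ih =>
    rw [pow_succ, ih, add_mul, one_mul, mul_add, mul_one, smul_mul_assoc, hM, smul_zero, add_zero]
    push_cast
    rw [add_smul, one_smul]
    abel

include hred in
theorem rb_eq_one {h : G} {j : ℕ} (hj : j ≠ 0) {X : M2 (ZMod (2 ^ k))}
    (hX : R h = 1 + (2 : ZMod (2 ^ k)) ^ j • X) : rb h = 1 := by
  rw [← hred, hX]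
  ext a b
  have h2 : red2 hk (2 : ZMod (2 ^ k)) = 0 := by
    rw [map_ofNat]; decide
  rw [Matrix.map_apply, Matrix.add_apply, Matrix.smul_apply, smul_eq_mul, map_add, map_mul,
    map_pow, h2, zero_pow hj, zero_mul, add_zero]
  by_cases hab : a = b
  · subst hab; rw [Matrix.one_apply_eq, Matrix.one_apply_eq, map_one]
  · rw [Matrix.one_apply_ne hab, Matrix.one_apply_ne hab, map_zero]

include hred hsurj hcoc in
/-- descent along the congruence filtration -/
theorem descend {g₀ : G} (h0 : (R g₀ - 1) * (R g₀ - 1) = 0) (h1 : rb g₀ ≠ 1)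
    (hξ0 : ξ (g₀ * g₀) = 0) {j : ℕ} (hj : j ≠ 0)
    (ih : ∀ h X, R h = 1 + (2 : ZMod (2 ^ k)) ^ (j + 1) • X → ξ h = 0) (h : G)
    (X : M2 (ZMod (2 ^ k))) (hX : R h = 1 + (2 : ZMod (2 ^ k)) ^ j • X) : ξ h = 0 := by
  set D : Set (M2 (ZMod 2)) := {Y | ∃ (w : G) (X : M2 (ZMod (2 ^ k))),
    R w = 1 + (2 : ZMod (2 ^ k)) ^ j • X ∧ X.map (red2 hk) = Y ∧ ξ w = 0} with hD
  have h2 : red2 hk (2 : ZMod (2 ^ k)) = 0 := by
    rw [map_ofNat]; decide
  have hadd : ∀ X ∈ D, ∀ Y ∈ D, X + Y ∈ D := by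
    rintro _ ⟨w, X, hw, rfl, hξ⟩ _ ⟨w', X', hw', rfl, hξ'⟩
    refine ⟨w * w', X + X' + (2 : ZMod (2 ^ k)) ^ j • (X * X'), ?_, ?_, ?_⟩
    · rw [map_mul, hw, hw', add_mul, one_mul, mul_add, mul_one, smul_mul_assoc, mul_smul_comm,
        smul_add, smul_add]
      abel
    · ext a b
      rw [Matrix.map_apply, Matrix.add_apply, Matrix.smul_apply, smul_eq_mul, map_add, map_mul,
        map_pow, h2, zero_pow hj, zero_mul, add_zero, Matrix.add_apply, map_add]
      rfl
    · rw [coc_mul rb hcoc (rb_eq_one hk R rb hred hj hw), hξ, hξ', add_zero]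
  have hconjg : ∀ (g : G) (w : G) (X : M2 (ZMod (2 ^ k))),
      R w = 1 + (2 : ZMod (2 ^ k)) ^ j • X →
      R (g * w * g⁻¹) = 1 + (2 : ZMod (2 ^ k)) ^ j • (R g * X * R g⁻¹) := by
    intro g w X hw
    rw [map_mul, map_mul, hw, mul_add, add_mul, mul_one, ← map_mul, mul_inv_cancel, map_one,
      mul_smul_comm, smul_mul_assoc]
  have hconj : ∀ X ∈ D, ∀ m m' : M2 (ZMod 2), m * m' = 1 → m * X * m' ∈ D := by
    rintro _ ⟨w, X, hw, rfl, hξ⟩ m m' hmm
    obtain ⟨g, hg⟩ := hsurj m m' hmm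
    have hg' : rb g⁻¹ = m' := by
      have : rb g⁻¹ * m = 1 := by rw [← hg, ← map_mul, inv_mul_cancel, map_one]
      calc rb g⁻¹ = rb g⁻¹ * (m * m') := by rw [hmm, mul_one]
        _ = m' := by rw [← mul_assoc, this, one_mul]
    refine ⟨g * w * g⁻¹, R g * X * R g⁻¹, hconjg g w X hw, ?_, ?_⟩
    · rw [Matrix.map_mul, Matrix.map_mul, hred, hred, hg, hg']
    · rw [coc_conj rb hcoc (rb_eq_one hk R rb hred hj hw), hξ, Matrix.mulVec_zero]
  set M := R g₀ - 1 with hM
  have hRg : R g₀ = 1 + M := by rw [hM]; abel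
  have hMred : M.map (red2 hk) = rb g₀ - 1 := by
    rw [hM, ← hred]
    ext a b
    rw [Matrix.map_apply, Matrix.sub_apply, map_sub, Matrix.sub_apply, Matrix.map_apply]
    congr 1
    by_cases hab : a = b
    · subst hab; rw [Matrix.one_apply_eq, Matrix.one_apply_eq, map_one]
    · rw [Matrix.one_apply_ne hab, Matrix.one_apply_ne hab, map_zero]
  have hn : rb g₀ - 1 ∈ D := by
    refine ⟨g₀ ^ (2 ^ j), M, ?_, hMred, ?_⟩
    · rw [map_pow, hRg, pow_unip h0]
      push_cast
      rfl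
    · have h3 : g₀ ^ (2 ^ j) = (g₀ * g₀) ^ (2 ^ (j - 1)) := by
        rw [← pow_two, ← pow_mul, ← pow_succ', Nat.sub_add_cancel (Nat.one_le_iff_ne_zero.2 hj)]
      rw [h3]
      apply coc_pow rb hcoc _ hξ0
      have h4 : (rb g₀ - 1) * (rb g₀ - 1) = 0 := by
        rw [← hMred, ← Matrix.map_mul, h0]
        ext a b
        simp
      have h5 : rb g₀ * rb g₀ = 1 + (rb g₀ - 1) + (rb g₀ - 1) := by
        have : (rb g₀ - 1) * (rb g₀ - 1) = rb g₀ * rb g₀ - rb g₀ - rb g₀ + 1 := by noncomm_ring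
        rw [this] at h4
        rw [← sub_eq_zero, ← h4]
        abel
      rw [map_mul, h5, add_assoc]
      have h6 : ∀ Y : M2 (ZMod 2), Y + Y = 0 := by
        intro Y
        ext a b
        have : ∀ c : ZMod 2, c + c = 0 := by decide
        exact this _
      rw [h6, add_zero]
  have hn0 : rb g₀ - 1 ≠ 0 := sub_ne_zero.2 h1
  have hn2 : (rb g₀ - 1) * (rb g₀ - 1) = 0 := by
    rw [← hMred, ← Matrix.map_mul, h0]
    ext a b
    simp
  have key : ∀ Y : M2 (ZMod 2), Y 0 0 = Y 1 1 → Y ∈ D := fun Y hY =>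
    trace_zero_mem hadd hconj hn hn0 hn2 hY
  -- the element of order three
  obtain ⟨z, hz⟩ := hsurj zz (zz * zz) (by decide)
  have hrbh : rb h = 1 := rb_eq_one hk R rb hred hj hX
  set X'' := R z * X * R z⁻¹ with hX''
  have hz' : rb z⁻¹ = zz * zz := by
    have h3 : rb z⁻¹ * zz = 1 := by rw [← hz, ← map_mul, inv_mul_cancel, map_one]
    have h4 : zz * (zz * zz) = 1 := by decide
    calc rb z⁻¹ = rb z⁻¹ * (zz * (zz * zz)) := by rw [h4, mul_one]
      _ = zz * zz := by rw [← mul_assoc, h3, one_mul]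
  have hYtr : ((X'' - X).map (red2 hk)) 0 0 = ((X'' - X).map (red2 hk)) 1 1 := by
    have h3 : (X'' - X).map (red2 hk) = zz * X.map (red2 hk) * (zz * zz) - X.map (red2 hk) := by
      rw [hX'', Matrix.map_sub (red2 hk) (_root_.map_sub (red2 hk)), Matrix.map_mul,
        Matrix.map_mul, hred, hred, hz, hz']
    rw [h3]
    generalize X.map (red2 hk) = Y
    rw [eta2 Y]
    generalize Y 0 0 = a
    generalize Y 0 1 = b
    generalize Y 1 0 = c
    generalize Y 1 1 = d
    revert a b c d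
    decide
  obtain ⟨w, X', hw, hX', hξw⟩ := key _ hYtr
  have hz1 : (X + X' - X'').map (red2 hk) = 0 := by
    rw [Matrix.map_sub (red2 hk) (_root_.map_sub (red2 hk)),
      Matrix.map_add (red2 hk) (_root_.map_add (red2 hk)), hX',
      Matrix.map_sub (red2 hk) (_root_.map_sub (red2 hk))]
    abel
  obtain ⟨Z, hZ⟩ := red2_mat_eq_zero hk hz1
  have hR1 : R (h * w) = R (z * h * z⁻¹) + (2 : ZMod (2 ^ k)) ^ (j + 1) •
      (Z + (2 : ZMod (2 ^ k)) ^ (j - 1) • (X * X')) := by
    have h3 : X + X' = X'' + (2 : ZMod (2 ^ k)) • Z := by rw [← hZ]; abel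
    rw [map_mul, hX, hw, hconjg z h X hX, ← hX'', add_mul, one_mul, mul_add, mul_one,
      smul_mul_assoc, mul_smul_comm, smul_add, smul_smul, smul_smul, ← pow_add, ← pow_add]
    have h4 : j + 1 + (j - 1) = j + j := by omega
    rw [h4, pow_succ, mul_smul]
    have h5 : (2 : ZMod (2 ^ k)) ^ j • X + (2 : ZMod (2 ^ k)) ^ j • X' =
        (2 : ZMod (2 ^ k)) ^ j • X'' + (2 : ZMod (2 ^ k)) ^ j • ((2 : ZMod (2 ^ k)) • Z) := by
      rw [← smul_add, h3, smul_add]
    rw [show (1 : M2 (ZMod (2 ^ k))) + (2 : ZMod (2 ^ k)) ^ j • X' +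
      ((2 : ZMod (2 ^ k)) ^ j • X + (2 : ZMod (2 ^ k)) ^ (j + j) • (X * X')) =
      1 + ((2 : ZMod (2 ^ k)) ^ j • X + (2 : ZMod (2 ^ k)) ^ j • X') +
      (2 : ZMod (2 ^ k)) ^ (j + j) • (X * X') by abel, h5]
    abel
  set u := h * w * (z * h * z⁻¹)⁻¹ with hu
  have hRu : R u = 1 + (2 : ZMod (2 ^ k)) ^ (j + 1) •
      ((Z + (2 : ZMod (2 ^ k)) ^ (j - 1) • (X * X')) * R (z * h * z⁻¹)⁻¹) := by
    rw [hu, map_mul, hR1, add_mul, ← map_mul, mul_inv_cancel, map_one, smul_mul_assoc]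
  have hξu := ih _ _ hRu
  have hrbu : rb u = 1 := rb_eq_one hk R rb hred (Nat.succ_ne_zero j) hRu
  have e1 : ξ (h * w) = ξ (z * h * z⁻¹) := by
    have h3 : h * w = u * (z * h * z⁻¹) := by rw [hu, inv_mul_cancel_right]
    rw [h3, coc_mul rb hcoc hrbu, hξu, zero_add]
  rw [coc_mul rb hcoc hrbh, hξw, add_zero, coc_conj rb hcoc hrbh, hz] at e1
  exact no_fixed zz_spec e1.symm

include hsurj hcoc in
/-- a cocycle trivial on the kernel is a coboundary -/
theorem cobound_of_ker (h : ∀ g, rb g = 1 → ξ g = 0) :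
    ∃ m : V2, ∀ g, ξ g = (rb g).mulVec m - m := by
  obtain ⟨z, hz⟩ := hsurj zz (zz * zz) (by decide)
  have hinj : Function.Injective (fun m : V2 => zz.mulVec m - m) := by
    intro a b hab
    have h1 : zz.mulVec (a - b) = a - b := by
      rw [Matrix.mulVec_sub]
      have h2 : zz.mulVec a - a = zz.mulVec b - b := hab
      rw [sub_eq_sub_iff_add_eq_add] at h2 ⊢
      rw [h2, add_comm]
    exact sub_eq_zero.1 (no_fixed zz_spec h1)
  obtain ⟨m, hm⟩ := (Finite.injective_iff_surjective.1 hinj) (ξ z)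
  refine ⟨m, fun g => ?_⟩
  -- `d g = ξ g - (g m - m)` is a cocycle vanishing at `z` and on the kernel
  set d : G → V2 := fun g => ξ g - ((rb g).mulVec m - m) with hd
  have hdc : ∀ g h, d (g * h) = d g + (rb g).mulVec (d h) := by
    intro g h
    simp only [hd]
    rw [hcoc, map_mul, ← Matrix.mulVec_mulVec, Matrix.mulVec_sub, Matrix.mulVec_sub]
    abel
  have hdz : d z = 0 := by
    simp only [hd]
    rw [hz, sub_eq_zero]
    exact hm.symm
  have hdk : ∀ g, rb g = 1 → d g = 0 := by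
    intro g hg
    simp only [hd]
    rw [h g hg, hg, Matrix.one_mulVec, sub_self, sub_self]
  have hd1 : ∀ g h, rb g = rb h → d g = d h := by
    intro g h hgh
    have h1 : d (g * (g⁻¹ * h)) = d g + (rb g).mulVec (d (g⁻¹ * h)) := hdc _ _
    have h2 : rb (g⁻¹ * h) = 1 := by rw [map_mul, ← hgh, ← map_mul, inv_mul_cancel, map_one]
    rw [mul_inv_cancel_left, hdk _ h2, Matrix.mulVec_zero, add_zero] at h1
    exact h1.symm
  have hdzz : d (z * z) = 0 := by rw [hdc, hdz, Matrix.mulVec_zero, add_zero]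
  suffices hs : d g = 0 by
    simp only [hd] at hs
    exact sub_eq_zero.1 hs
  -- `g z = z^i g`
  have hcase : rb g * zz = zz * rb g ∨ rb g * zz = zz * zz * rb g := by
    have hdet : (rb g).det = 1 := by
      have h1 : (rb g).det * (rb g⁻¹).det = 1 := by
        rw [← Matrix.det_mul, ← map_mul, mul_inv_cancel, map_one, Matrix.det_one]
      generalize (rb g).det = a at *
      generalize (rb g⁻¹).det = b at *
      revert a b
      decide
    generalize rb g = m at *
    rw [eta2 m] at hdet ⊢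
    generalize m 0 0 = a at *
    generalize m 0 1 = b at *
    generalize m 1 0 = c at *
    generalize m 1 1 = e at *
    clear hm hdc hdk hd1 hcoc h
    revert a b c e
    decide
  have e1 : d (g * z) = d g := by rw [hdc, hdz, Matrix.mulVec_zero, add_zero]
  rcases hcase with hc | hc
  · have e2 : d (g * z) = d (z * g) := hd1 _ _ (by rw [map_mul, map_mul, hz, hc])
    rw [e1, hdc z g, hdz, zero_add, hz] at e2
    exact no_fixed zz_spec e2.symm
  · have e2 : d (g * z) = d (z * z * g) := hd1 _ _ (by rw [map_mul, map_mul, map_mul, hz, hc])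
    rw [e1, hdc (z * z) g, hdzz, zero_add, map_mul, hz] at e2
    exact no_fixed (w := zz * zz) (by decide) e2.symm

include hk hred hsurj hcoc in
/-- **The group theoretic part of the choice of auxiliary primes.** -/
theorem exists_good {g₀ : G} (h0 : (R g₀ - 1) * (R g₀ - 1) = 0) (h1 : rb g₀ ≠ 1)
    (hnc : ¬ ∃ m : V2, ∀ g, ξ g = (rb g).mulVec m - m) :
    ∃ g, (R g - 1) * (R g - 1) = 0 ∧ rb g ≠ 1 ∧ ∀ x, ξ g ≠ (rb g).mulVec x - x := by
  have hn2 : (rb g₀ - 1) * (rb g₀ - 1) = 0 := by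
    have hMred : (R g₀ - 1).map (red2 hk) = rb g₀ - 1 := by
      rw [← hred]
      ext a b
      rw [Matrix.map_apply, Matrix.sub_apply, map_sub, Matrix.sub_apply, Matrix.map_apply]
      congr 1
      by_cases hab : a = b
      · subst hab; rw [Matrix.one_apply_eq, Matrix.one_apply_eq, map_one]
      · rw [Matrix.one_apply_ne hab, Matrix.one_apply_ne hab, map_zero]
    rw [← hMred, ← Matrix.map_mul, h0]
    ext a b
    simp
  by_cases hA : ∃ h, R h = 1 ∧ ξ h ≠ 0
  · obtain ⟨h, hh, hξ⟩ := hA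
    have hker : ∀ h, R h = 1 → rb h = 1 := fun h hh =>
      rb_eq_one hk R rb hred (j := k) hk (X := 0) (by rw [hh, smul_zero, add_zero])
    obtain ⟨y, hy⟩ := exists_translate h1 hn2 (ξ g₀)
    obtain ⟨h', hh', hξ'⟩ : ∃ h', R h' = 1 ∧ ξ h' = y := by
      by_cases hy0 : y = 0
      · exact ⟨1, map_one _, by rw [coc_one rb hcoc, hy0]⟩
      · obtain ⟨m, m', hmm, hm⟩ := exists_move hξ hy0
        obtain ⟨g, hg⟩ := hsurj m m' hmm
        refine ⟨g * h * g⁻¹, ?_, ?_⟩
        · rw [map_mul, map_mul, hh, mul_one, ← map_mul, mul_inv_cancel, map_one]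
        · rw [coc_conj rb hcoc (hker h hh), hg, hm]
    refine ⟨g₀ * h', ?_, ?_, fun x => ?_⟩
    · rw [map_mul, hh', mul_one, h0]
    · rw [map_mul, hker h' hh', mul_one]
      exact h1
    · rw [hcoc, hξ', map_mul, hker h' hh', mul_one]
      exact hy x
  · push Not at hA
    refine ⟨g₀, h0, h1, fun x hx => hnc ?_⟩
    have hξ0 : ξ (g₀ * g₀) = 0 := by
      rw [hcoc, hx]
      have h2 : (rb g₀).mulVec x - x + (rb g₀).mulVec ((rb g₀).mulVec x - x) =
          ((rb g₀ - 1) * (rb g₀ - 1)).mulVec x := by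
        rw [← Matrix.mulVec_mulVec, Matrix.sub_mulVec, Matrix.sub_mulVec, Matrix.one_mulVec,
          Matrix.one_mulVec]
        set v := (rb g₀).mulVec x - x
        have h3 : v + (rb g₀).mulVec v = (rb g₀).mulVec v - v + (v + v) := by abel
        rw [h3]
        have h4 : v + v = 0 := by
          funext i
          have : ∀ c : ZMod 2, c + c = 0 := by decide
          exact this _
        rw [h4, add_zero]
      rw [h2, hn2, Matrix.zero_mulVec]
    have hall : ∀ j : ℕ, j ≤ k - 1 → ∀ h X, R h = 1 + (2 : ZMod (2 ^ k)) ^ (k - j) • X →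
        ξ h = 0 := by
      intro j
      induction j with
      | zero =>
        intro _ h X hX
        apply hA
        have h2 : (2 : ZMod (2 ^ k)) ^ k = 0 := by
          have := ZMod.natCast_self (2 ^ k)
          rwa [Nat.cast_pow, Nat.cast_ofNat] at this
        rw [hX, Nat.sub_zero, h2, zero_smul, add_zero]
      | succ j ih =>
        intro hj h X hX
        refine descend hk R rb hred hsurj hcoc h0 h1 hξ0 (j := k - (j + 1)) (by omega) ?_ h X hX
        have e : k - (j + 1) + 1 = k - j := by omega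
        rw [e]
        exact ih (by omega)
    apply cobound_of_ker rb hsurj hcoc
    intro g hg
    have h2 : (R g - 1).map (red2 hk) = 0 := by
      have h3 := hred g
      rw [hg] at h3
      ext a b
      have h4 := congrFun (congrFun h3 a) b
      rw [Matrix.map_apply] at h4
      rw [Matrix.map_apply, Matrix.sub_apply, map_sub, h4, Matrix.zero_apply, sub_eq_zero]
      by_cases hab : a = b
      · subst hab; rw [Matrix.one_apply_eq, Matrix.one_apply_eq, map_one]
      · rw [Matrix.one_apply_ne hab, Matrix.one_apply_ne hab, map_zero]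
    obtain ⟨Z, hZ⟩ := red2_mat_eq_zero hk h2
    refine hall (k - 1) le_rfl g Z ?_
    have e : k - (k - 1) = 1 := by omega
    rw [e, pow_one, ← hZ]
    abel

end group

end Fermat.Agent.ZSel
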