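import Fermat.Agent.ZSel.Act

/-!
# Theorem Z, step 1: local duality at an auxiliary prime
-/

set_option autoImplicit false

namespace Fermat.Agent.ZSel

open Fermat.Agent.PT Fermat.Agent.PTLocal

theorem card_ker_eq {A B : Type*} [AddCommGroup A] [AddCommGroup B] (φ : A →+ B)
    (hA : Nat.card A = 4) (hB : Nat.card B = 2) {x : A} (hx : φ x ≠ 0) :
    Nat.card φ.ker = 2 := by
  have h1 : φ.ker.index = Nat.card φ.range := AddSubgroup.index_ker φ
  have hBf : Finite B := Nat.finite_of_card_ne_zero (by rw [hB]; decide)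
  have h2 : Nat.card φ.range ∣ 2 := by
    rw [← hB]
    exact AddSubgroup.card_addSubgroup_dvd_card _
  have h3 : Nat.card φ.range ≠ 1 := by
    intro h
    rw [AddSubgroup.card_eq_one] at h
    have h4 : φ x ∈ φ.range := ⟨x, rfl⟩
    rw [h] at h4
    exact hx h4
  have h4 : Nat.card φ.range = 2 := by
    rcases (Nat.dvd_prime Nat.prime_two).1 h2 with h | h
    · exact absurd h h3
    · exact h
  have h5 := φ.ker.card_mul_index
  rw [h1, h4, hA] at h5
  omega

section

variable {q : ℕ} [hq : Fact q.Prime] {G : Type} [Group G] {L : Levels G}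
  (hG : LGal ℚ_[q] (PadicAlgCl q) L)

include hG in
/-- local duality: the annihilator of an isotropic character -/
theorem local_kernel (hq2 : q ≠ 2) {χ f : Chi 2 L} (hχ : χ ≠ 0)
    (hχχ : cupT 2 L (H1.mk L _ χ) (H1.mk L _ χ) = 0)
    (hf : cupT 2 L (H1.mk L _ χ) (H1.mk L _ f) = 0) : f = 0 ∨ f = χ := by
  have hζ : IsPrimitiveRoot (-1 : PadicAlgCl q) 2 := by
    haveI : CharZero (PadicAlgCl q) := charZero_of_injective_algebraMap
      (algebraMap ℚ_[q] (PadicAlgCl q)).injective
    exact IsPrimitiveRoot.neg_one 0 (by decide)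
  have hfix : ∀ g, hG.j g (-1 : PadicAlgCl q) = -1 := fun g => by rw [map_neg, map_one]
  have h1 : Nat.card (H1 L (trivAct G (ZMod 2))) = 4 := by
    rw [hG.card_H1_eq hζ hfix, if_neg (Ne.symm hq2)]
    norm_num
  have h2 : Nat.card (H2 L (trivAct G (ZMod 2))) = 2 := hG.card_H2 hζ hfix
  have hχ' : H1.mk L _ χ ≠ 0 := fun h => hχ (chi_mk_eq_zero.1 h)
  obtain ⟨x, hx⟩ := hG.exists_cup_ne hζ hfix hχ'
  have hker := card_ker_eq (cupT 2 L (H1.mk L _ χ)) h1 h2 hx
  by_contra hcon
  push Not at hcon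
  obtain ⟨hf0, hfχ⟩ := hcon
  have hfin : Finite (cupT 2 L (H1.mk L _ χ)).ker :=
    Nat.finite_of_card_ne_zero (by rw [hker]; decide)
  have hinj : Function.Injective (fun i : Fin 3 =>
      (![(⟨0, map_zero _⟩ : (cupT 2 L (H1.mk L _ χ)).ker), ⟨H1.mk L _ χ, hχχ⟩,
        ⟨H1.mk L _ f, hf⟩] i)) := by
    have e1 : H1.mk L (trivAct G (ZMod 2)) f ≠ 0 := fun h => hf0 (chi_mk_eq_zero.1 h)
    have e2 : H1.mk L (trivAct G (ZMod 2)) f ≠ H1.mk L _ χ := fun h => hfχ (chi_mk_injective h)
    intro i j hij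
    fin_cases i <;> fin_cases j
    · rfl
    · exact absurd (congrArg Subtype.val hij).symm hχ'
    · exact absurd (congrArg Subtype.val hij).symm e1
    · exact absurd (congrArg Subtype.val hij) hχ'
    · rfl
    · exact absurd (congrArg Subtype.val hij).symm e2
    · exact absurd (congrArg Subtype.val hij) e1
    · exact absurd (congrArg Subtype.val hij) e2
    · rfl
  have h3 := Nat.card_le_card_of_injective _ hinj
  rw [hker, Nat.card_fin] at h3
  omega

end

end Fermat.Agent.ZSel
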