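import Fermat.Agent.ZSel.Group
import Fermat.Agent.ZThm.Defs
import Fermat.Agent.Cheb.Exist

/-!
# Theorem Z, step 1: choice of the auxiliary prime
-/

set_option autoImplicit false

namespace Fermat.Agent.ZSel

open Matrix
open scoped Pointwise

/-- the absolute Galois group of `ℚ` -/
abbrev GQ := AlgebraicClosure ℚ ≃ₐ[ℚ] AlgebraicClosure ℚ

section affine

variable {G : Type*} [Group G] (rb : G →* M2 (ZMod 2)) {ξ : G → V2}
  (hcoc : ∀ g h, ξ (g * h) = ξ g + (rb g).mulVec (ξ h))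

/-- the affine permutation attached to a cocycle -/
def affPerm (g : G) : Equiv.Perm V2 where
  toFun x := (rb g).mulVec x + ξ g
  invFun x := (rb g⁻¹).mulVec x + ξ g⁻¹
  left_inv x := by
    have h := hcoc g⁻¹ g
    rw [inv_mul_cancel, coc_one rb hcoc] at h
    show (rb g⁻¹).mulVec ((rb g).mulVec x + ξ g) + ξ g⁻¹ = x
    rw [Matrix.mulVec_add, Matrix.mulVec_mulVec, ← map_mul, inv_mul_cancel, map_one,
      Matrix.one_mulVec, add_assoc, add_comm ((rb g⁻¹).mulVec (ξ g)), ← h, add_zero]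
  right_inv x := by
    have h := hcoc g g⁻¹
    rw [mul_inv_cancel, coc_one rb hcoc] at h
    show (rb g).mulVec ((rb g⁻¹).mulVec x + ξ g⁻¹) + ξ g = x
    rw [Matrix.mulVec_add, Matrix.mulVec_mulVec, ← map_mul, mul_inv_cancel, map_one,
      Matrix.one_mulVec, add_assoc, add_comm ((rb g).mulVec (ξ g⁻¹)), ← h, add_zero]

theorem affPerm_apply (g : G) (x : V2) : affPerm rb hcoc g x = (rb g).mulVec x + ξ g := rfl

/-- the affine action -/
def affHom : G →* Equiv.Perm V2 where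
  toFun := affPerm rb hcoc
  map_one' := by
    apply Equiv.ext
    intro x
    rw [affPerm_apply, map_one, Matrix.one_mulVec, coc_one rb hcoc, add_zero]
    rfl
  map_mul' g h := by
    apply Equiv.ext
    intro x
    rw [Equiv.Perm.mul_apply, affPerm_apply, affPerm_apply, affPerm_apply, hcoc, map_mul,
      Matrix.mulVec_add, Matrix.mulVec_mulVec]
    abel

theorem affHom_apply (g : G) (x : V2) : affHom rb hcoc g x = (rb g).mulVec x + ξ g := rfl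

theorem aff_fixed_iff (g : G) :
    (∀ x, affHom rb hcoc g x ≠ x) ↔ ∀ x, ξ g ≠ (rb g).mulVec x - x := by
  have key : ∀ a b c : V2, a + b = c ↔ b = a - c := by
    intro a b c
    constructor
    · intro h
      rw [← h]
      funext i
      have : ∀ u v : ZMod 2, v = u - (u + v) := by decide
      exact this _ _
    · intro h
      rw [h]
      funext i
      have : ∀ u v : ZMod 2, u + (u - v) = v := by decide
      exact this _ _
  refine forall_congr' fun x => not_congr ?_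
  rw [affHom_apply]
  exact key _ _ _

end affine

/-- **Choice of the auxiliary prime.** -/
theorem exists_prime {k : ℕ} (hk : k ≠ 0) (R : GQ →* M2 (ZMod (2 ^ k))) (rb : GQ →* M2 (ZMod 2))
    (hred : ∀ g, (R g).map (red2 hk) = rb g)
    (hsm : ∃ L : IntermediateField ℚ (AlgebraicClosure ℚ), FiniteDimensional ℚ L ∧
      ∀ σ ∈ L.fixingSubgroup, R σ = 1)
    (hsurj : ∀ m m' : M2 (ZMod 2), m * m' = 1 → ∃ g, rb g = m)
    {ξ : GQ → V2} (hcoc : ∀ g h, ξ (g * h) = ξ g + (rb g).mulVec (ξ h))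
    (hsmξ : ∃ L : IntermediateField ℚ (AlgebraicClosure ℚ), FiniteDimensional ℚ L ∧
      ∀ σ ∈ L.fixingSubgroup, ξ σ = 0)
    {g₀ : GQ} (h0 : (R g₀ - 1) * (R g₀ - 1) = 0) (h1 : rb g₀ ≠ 1)
    (hnc : ¬ ∃ m : V2, ∀ g, ξ g = (rb g).mulVec m - m) (S : Finset ℕ) :
    ∃ q : ℕ, q.Prime ∧ q ∉ S ∧ ∀ A : ValuationSubring (AlgebraicClosure ℚ),
      A.LiesOverPrime q → (∀ s ∈ A.inertiaSubgroupIn ℚ, R s = 1 ∧ ξ s = 0) ∧
      ∀ Φ, A.IsFrobeniusAt Φ q → (R Φ - 1) * (R Φ - 1) = 0 ∧ rb Φ ≠ 1 ∧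
        ∀ x, ξ Φ ≠ (rb Φ).mulVec x - x := by
  classical
  obtain ⟨g, hg0, hg1, hg2⟩ := exists_good hk R rb hred hsurj hcoc h0 h1 hnc
  haveI : NeZero (2 ^ k) := ⟨pow_ne_zero _ two_ne_zero⟩
  let Ψ : GQ →* (M2 (ZMod (2 ^ k)))ˣ × Equiv.Perm V2 := R.toHomUnits.prod (affHom rb hcoc)
  have hΨ1 : ∀ s, ((Ψ s).1 : M2 (ZMod (2 ^ k))) = R s := fun s => rfl
  have hΨ2 : ∀ s, (Ψ s).2 = affHom rb hcoc s := fun s => rfl
  obtain ⟨L, hL, hLR⟩ := hsm
  obtain ⟨L', hL', hLξ⟩ := hsmξ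
  have hrb1 : ∀ s, R s = 1 → rb s = 1 := by
    intro s hs
    rw [← hred, hs]
    ext a b
    rw [Matrix.map_apply]
    by_cases hab : a = b
    · subst hab; rw [Matrix.one_apply_eq, Matrix.one_apply_eq, map_one]
    · rw [Matrix.one_apply_ne hab, Matrix.one_apply_ne hab, map_zero]
  let P : (M2 (ZMod (2 ^ k)))ˣ × Equiv.Perm V2 → Prop := fun c =>
    ((c.1 : M2 (ZMod (2 ^ k))) - 1) * ((c.1 : M2 (ZMod (2 ^ k))) - 1) = 0 ∧
      ((c.1 : M2 (ZMod (2 ^ k)))).map (red2 hk) ≠ 1 ∧ ∀ x, c.2 x ≠ x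
  have hP : ∀ s, P (Ψ s) ↔ ((R s - 1) * (R s - 1) = 0 ∧ rb s ≠ 1 ∧
      ∀ x, ξ s ≠ (rb s).mulVec x - x) := by
    intro s
    rw [← aff_fixed_iff rb hcoc, ← hred s]
    rfl
  have hPc : ∀ c y, P c → P (y * c * y⁻¹) := by
    rintro ⟨c, σ⟩ ⟨y, τ⟩ ⟨p1, p2, p3⟩
    have hyy : (y : M2 (ZMod (2 ^ k))) * (y⁻¹ : (M2 (ZMod (2 ^ k)))ˣ) = 1 := Units.mul_inv y
    have hyy' : ((y⁻¹ : (M2 (ZMod (2 ^ k)))ˣ) : M2 (ZMod (2 ^ k))) * y = 1 := Units.inv_mul y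
    have e1 : ((y * c * y⁻¹ : (M2 (ZMod (2 ^ k)))ˣ) : M2 (ZMod (2 ^ k))) - 1 =
        y * (c - 1) * (y⁻¹ : (M2 (ZMod (2 ^ k)))ˣ) := by
      rw [Units.val_mul, Units.val_mul, mul_sub, sub_mul, mul_one, hyy]
    refine ⟨?_, ?_, ?_⟩
    · show (((y * c * y⁻¹ : (M2 (ZMod (2 ^ k)))ˣ) : M2 (ZMod (2 ^ k))) - 1) *
        (((y * c * y⁻¹ : (M2 (ZMod (2 ^ k)))ˣ) : M2 (ZMod (2 ^ k))) - 1) = 0
      rw [e1]
      calc (y : M2 (ZMod (2 ^ k))) * (c - 1) * (y⁻¹ : (M2 (ZMod (2 ^ k)))ˣ) *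
          (y * (c - 1) * (y⁻¹ : (M2 (ZMod (2 ^ k)))ˣ)) =
          y * (c - 1) * ((y⁻¹ : (M2 (ZMod (2 ^ k)))ˣ) * y) * (c - 1) *
            (y⁻¹ : (M2 (ZMod (2 ^ k)))ˣ) := by noncomm_ring
        _ = y * (((c : M2 (ZMod (2 ^ k))) - 1) * (c - 1)) * (y⁻¹ : (M2 (ZMod (2 ^ k)))ˣ) := by
          rw [hyy']; noncomm_ring
        _ = 0 := by
          have p1' : ((c : M2 (ZMod (2 ^ k))) - 1) * (c - 1) = 0 := p1
          rw [p1', mul_zero, zero_mul]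
    · show ((y * c * y⁻¹ : (M2 (ZMod (2 ^ k)))ˣ) : M2 (ZMod (2 ^ k))).map (red2 hk) ≠ 1
      intro hcon
      apply p2
      show (c : M2 (ZMod (2 ^ k))).map (red2 hk) = 1
      have e2 : (c : M2 (ZMod (2 ^ k))) = (y⁻¹ : (M2 (ZMod (2 ^ k)))ˣ) *
          ((y * c * y⁻¹ : (M2 (ZMod (2 ^ k)))ˣ) : M2 (ZMod (2 ^ k))) * y := by
        rw [Units.val_mul, Units.val_mul]
        calc (c : M2 (ZMod (2 ^ k))) = ((y⁻¹ : (M2 (ZMod (2 ^ k)))ˣ) * (y : M2 (ZMod (2 ^ k)))) *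
              c * ((y⁻¹ : (M2 (ZMod (2 ^ k)))ˣ) * (y : M2 (ZMod (2 ^ k)))) := by
              rw [hyy', one_mul, mul_one]
          _ = _ := by noncomm_ring
      have e3 : ((y⁻¹ : (M2 (ZMod (2 ^ k)))ˣ) : M2 (ZMod (2 ^ k))).map (red2 hk) *
          (y : M2 (ZMod (2 ^ k))).map (red2 hk) = 1 := by
        rw [← Matrix.map_mul, hyy']
        ext a b
        rw [Matrix.map_apply]
        by_cases hab : a = b
        · subst hab; rw [Matrix.one_apply_eq, Matrix.one_apply_eq, map_one]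
        · rw [Matrix.one_apply_ne hab, Matrix.one_apply_ne hab, map_zero]
      rw [e2, Matrix.map_mul, Matrix.map_mul, hcon, mul_one, e3]
    · intro x hx
      have h2 : τ (σ (τ⁻¹ x)) = x := hx
      apply p3 (τ⁻¹ x)
      apply τ.injective
      show τ (σ (τ⁻¹ x)) = τ (τ⁻¹ x)
      rw [h2]
      exact (τ.apply_symm_apply x).symm
  obtain ⟨q, hq, hqS, h⟩ := Cheb.exists_prime_of_surjective Ψ.rangeRestrict
    Ψ.rangeRestrict_surjective (L ⊔ L') (IntermediateField.finiteDimensional_sup L L') (by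
      intro σ hσ
      rw [IntermediateField.fixingSubgroup_sup] at hσ
      apply Subtype.ext
      show Ψ σ = 1
      refine Prod.ext ?_ ?_
      · apply Units.ext
        exact hLR σ hσ.1
      · apply Equiv.ext
        intro x
        show (rb σ).mulVec x + ξ σ = x
        rw [hLξ σ hσ.2, hrb1 σ (hLR σ hσ.1), Matrix.one_mulVec, add_zero])
    {c : Ψ.range | P c} (by
      rintro c hc y
      exact hPc c.1 y.1 hc) ⟨Ψ.rangeRestrict g, (hP g).2 ⟨hg0, hg1, hg2⟩⟩ S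
  refine ⟨q, hq, hqS, fun A hA => ⟨fun s hs => ?_, fun Φ hΦ => ?_⟩⟩
  · have h2 : Ψ s = 1 := congrArg Subtype.val ((h A hA).1 s hs)
    have h3 : R s = 1 := congrArg (fun c : (M2 (ZMod (2 ^ k)))ˣ × Equiv.Perm V2 =>
      ((c.1 : (M2 (ZMod (2 ^ k)))ˣ) : M2 (ZMod (2 ^ k)))) h2
    refine ⟨h3, ?_⟩
    have h4 : (rb s).mulVec 0 + ξ s = 0 :=
      congrArg (fun c : (M2 (ZMod (2 ^ k)))ˣ × Equiv.Perm V2 => c.2 0) h2
    rw [Matrix.mulVec_zero, zero_add] at h4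
    exact h4
  · exact (hP Φ).1 ((h A hA).2 Φ hΦ)

end Fermat.Agent.ZSel
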