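import Fermat.Agent.ZSel.Unram
import Fermat.Agent.ZSel.Prime
import Fermat.Agent.ZSel.Finite

/-!
# Theorem Z, step 1: killing the Selmer group
-/

set_option autoImplicit false

open scoped ComplexConjugate Pointwise

namespace Fermat.Agent.ZSel

open Fermat.Agent.PT Fermat.Agent.PTLocal Fermat.Agent.PTC Fermat.Agent.Frob Fermat.Agent.CFT
  Fermat.Agent.CFT6

local notation "Qb" => AlgebraicClosure ℚ

/-- the standing hypotheses on the residual representation -/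
structure RbHyp (rb : GQ →* M2 (ZMod 2)) (N : ℕ) : Prop where
  even : 2 ∣ N
  pos : N ≠ 0
  sm : ∃ L : IntermediateField ℚ Qb, FiniteDimensional ℚ L ∧ ∀ σ ∈ L.fixingSubgroup, rb σ = 1
  unr : ∀ ℓ : ℕ, ℓ.Prime → ¬ ℓ ∣ N → ∀ A : ValuationSubring Qb, A.LiesOverPrime ℓ →
    ∀ s ∈ A.inertiaSubgroupIn ℚ, rb s = 1
  ram : ∀ v : ℕ, v.Prime → v ∣ N → ∀ A : ValuationSubring Qb, A.LiesOverPrime v →
    ∃ t ∈ A.decompositionSubgroup ℚ, rb t ≠ 1
  real : ∃ (c : GQ) (ι : Qb →+* ℂ), (∀ z, ι (c z) = conj (ι z)) ∧ rb c ≠ 1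
  surj : ∀ m m' : M2 (ZMod 2), m * m' = 1 → ∃ g, rb g = m

/-- the primes dividing `N` or in `Q` -/
noncomputable def primesNQ (N : ℕ) (Q : Finset ℕ) : Finset Nat.Primes :=
  (N.primeFactors ∪ Q).preimage (fun p : Nat.Primes => (p : ℕ)) Subtype.val_injective.injOn

theorem mem_primesNQ {N : ℕ} (hN : N ≠ 0) {Q : Finset ℕ} {v : Nat.Primes} :
    v ∈ primesNQ N Q ↔ (v : ℕ) ∣ N ∨ (v : ℕ) ∈ Q := by
  unfold primesNQ
  rw [Finset.mem_preimage, Finset.mem_union, Nat.mem_primeFactors]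
  constructor
  · rintro (h | h)
    · exact Or.inl h.2.1
    · exact Or.inr h
  · rintro (h | h)
    · exact Or.inl ⟨v.2, h, hN⟩
    · exact Or.inr h

variable {rb : GQ →* M2 (ZMod 2)} {N : ℕ} (H : RbHyp rb N)

include H

theorem RbHyp.rin (Q : Finset ℕ) : ∀ v : Nat.Primes, v ∉ primesNQ N Q →
    ∀ A : ValuationSubring Qb, A.LiesOverPrime (v : ℕ) → ∀ s ∈ A.inertiaSubgroupIn ℚ, rb s = 1 := by
  intro v hv A hA s hs
  rw [mem_primesNQ H.pos, not_or] at hv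
  exact H.unr v v.2 hv.1 A hA s hs

theorem RbHyp.smooth (Q : Finset ℕ) : Smooth (sL (primesNQ N Q)) (vAct rb) :=
  smooth_vAct rb H.sm (H.rin Q)

theorem sel_sm {Q : Finset ℕ} {ξ : GQ → V2} (hξ : ZThm.IsSel rb N Q ξ) :
    ∃ L : IntermediateField ℚ Qb, FiniteDimensional ℚ L ∧ ∀ σ ∈ L.fixingSubgroup, ξ σ = 0 := by
  obtain ⟨L, hL, h⟩ := hξ.1.2
  exact ⟨L, hL, fun σ hσ => h σ ((IntermediateField.mem_fixingSubgroup_iff _ _).1 hσ)⟩

theorem sel_in {Q : Finset ℕ} {ξ : GQ → V2} (hξ : ZThm.IsSel rb N Q ξ) :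
    ∀ v : Nat.Primes, v ∉ primesNQ N Q → ∀ A : ValuationSubring Qb, A.LiesOverPrime (v : ℕ) →
      ∀ s ∈ A.inertiaSubgroupIn ℚ, ξ s = 0 := by
  intro v hv A hA s hs
  rw [mem_primesNQ H.pos, not_or] at hv
  exact hξ.2.1 v v.2 hv.1 hv.2 A hA s hs

theorem sel_mem {Q : Finset ℕ} {ξ : GQ → V2} (hξ : ZThm.IsSel rb N Q ξ) :
    ξ ∈ Z1 (sL (primesNQ N Q)) (vAct rb) :=
  mem_Z1_sL rb hξ.1.1 H.sm (H.rin Q) (sel_sm H hξ) (sel_in H hξ)

theorem finite_sel (Q : Finset ℕ) : Finite {ξ : GQ → V2 // ZThm.IsSel rb N Q ξ} := by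
  have h2 : ExtCitation.pPrime 2 ∈ primesNQ N Q := (mem_primesNQ H.pos).2 (Or.inl H.even)
  have := finite_Z1 h2 rb (H.smooth Q)
  refine Finite.of_injective (fun ξ : {ξ : GQ → V2 // ZThm.IsSel rb N Q ξ} =>
    (⟨ξ.1, sel_mem H ξ.2⟩ : Z1 (sL (primesNQ N Q)) (vAct rb))) ?_
  intro a b hab
  have h3 := congrArg Subtype.val hab
  exact Subtype.ext h3

omit H in
theorem zero_sel (Q : Finset ℕ) : ZThm.IsSel rb N Q (fun _ => 0) := by
  refine ⟨⟨fun g h => ?_, ⟨⊥, inferInstance, fun _ _ => rfl⟩⟩, fun _ _ _ _ _ _ _ _ => rfl,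
    fun _ _ _ _ _ => ⟨0, fun s _ t _ => ?_⟩⟩
  · show (0 : V2) = 0 + (rb g).mulVec 0
    rw [Matrix.mulVec_zero, add_zero]
  · rw [Matrix.mulVec_zero, sub_zero, add_zero, Matrix.mulVec_zero]

omit H in
/-- a class satisfying the local condition at a transvection is locally trivial -/
theorem loc_triv {T : M2 (ZMod 2)} (hT : T ≠ 1) (hT2 : (T - 1) * (T - 1) = 0) {x m : V2}
    (h : T.mulVec (x + (T.mulVec m - m)) = x + (T.mulVec m - m)) : ∃ y, x = T.mulVec y - y := by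
  by_contra hcon
  push Not at hcon
  obtain ⟨l, hl1, hl2, hl3⟩ := exists_line hT hT2
  have h1 := hl3 x hcon
  have hdet : T.det = 1 := by
    rw [eta2 T] at hT2 hT ⊢
    generalize T 0 0 = a at *
    generalize T 0 1 = b at *
    generalize T 1 0 = c at *
    generalize T 1 1 = d at *
    clear h hl1 hl2 hl3 hcon
    revert a b c d
    decide
  have h2 : det2 (T.mulVec m - m) l = 0 := by
    have h3 : det2 (T.mulVec m) (T.mulVec l) = det2 m l := by rw [det2_mulVec, hdet, one_mul]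
    rw [hl1] at h3
    rw [map_sub, AddMonoidHom.sub_apply, h3, sub_self]
  have h4 : det2 (x + (T.mulVec m - m)) l = 0 := by
    rcases hl2 _ h with h5 | h5
    · rw [h5, map_zero, AddMonoidHom.zero_apply]
    · rw [h5, det2_apply]
      have : ∀ a b : ZMod 2, a * b + b * a = 0 := by decide
      exact this _ _
  rw [map_add, AddMonoidHom.add_apply, h2, add_zero, h1] at h4
  exact one_ne_zero h4

/-- the condition on auxiliary primes -/
def GoodPrime {k : ℕ} (R : GQ →* M2 (ZMod (2 ^ k))) (rb : GQ →* M2 (ZMod 2)) (N q : ℕ) : Prop :=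
  q.Prime ∧ ¬ q ∣ N ∧ ∀ A : ValuationSubring Qb, A.LiesOverPrime q →
    (∀ s ∈ A.inertiaSubgroupIn ℚ, R s = 1) ∧
    ∀ Φ, A.IsFrobeniusAt Φ q → (R Φ - 1) * (R Φ - 1) = 0 ∧ rb Φ ≠ 1

section step

variable {k : ℕ} (hk : k ≠ 0) (R : GQ →* M2 (ZMod (2 ^ k)))
  (hred : ∀ g, (R g).map (red2 hk) = rb g)

omit H in
include hred in
theorem unip_red {g : GQ} (h : (R g - 1) * (R g - 1) = 0) : (rb g - 1) * (rb g - 1) = 0 := by
  have hMred : (R g - 1).map (red2 hk) = rb g - 1 := by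
    rw [← hred]
    ext a b
    rw [Matrix.map_apply, Matrix.sub_apply, map_sub, Matrix.sub_apply, Matrix.map_apply]
    congr 1
    by_cases hab : a = b
    · subst hab; rw [Matrix.one_apply_eq, Matrix.one_apply_eq, map_one]
    · rw [Matrix.one_apply_ne hab, Matrix.one_apply_ne hab, map_zero]
  rw [← hMred, ← Matrix.map_mul, h]
  ext a b
  simp

include hred in
/-- **The induction step.** -/
theorem sel_step (hsm : ∃ L : IntermediateField ℚ Qb, FiniteDimensional ℚ L ∧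
      ∀ σ ∈ L.fixingSubgroup, R σ = 1)
    {g₀ : GQ} (h0 : (R g₀ - 1) * (R g₀ - 1) = 0) (h1 : rb g₀ ≠ 1) {Q : Finset ℕ}
    (hQ : ∀ q ∈ Q, GoodPrime R rb N q) {ξ : GQ → V2} (hξ : ZThm.IsSel rb N Q ξ)
    (hnc : ¬ ∃ m : V2, ∀ g, ξ g = (rb g).mulVec m - m) :
    ∃ q ∉ Q, GoodPrime R rb N q ∧ (∀ η, ZThm.IsSel rb N (insert q Q) η → ZThm.IsSel rb N Q η) ∧
      ¬ ZThm.IsSel rb N (insert q Q) ξ := by
  obtain ⟨q, hq, hqS, hqA⟩ := exists_prime hk R rb hred hsm H.surj hξ.1.1 (sel_sm H hξ) h0 h1 hnc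
    (N.primeFactors ∪ Q)
  rw [Finset.mem_union, not_or, Nat.mem_primeFactors] at hqS
  obtain ⟨hqN, hqQ⟩ := hqS
  have hqN' : ¬ q ∣ N := fun h => hqN ⟨hq, h, H.pos⟩
  have hq2 : q ≠ 2 := by
    rintro rfl
    exact hqN' H.even
  obtain ⟨q', hq'⟩ : ∃ q' : Nat.Primes, (q' : ℕ) = q := ⟨⟨q, hq⟩, rfl⟩
  subst hq'
  have hAq : (padicPlace (q' : ℕ)).LiesOverPrime (q' : ℕ) := CFT6.liesOver_padic (q' : ℕ)
  have hq'S : q' ∉ primesNQ N Q := by
    rw [mem_primesNQ H.pos, not_or]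
    exact ⟨hqN', hqQ⟩
  have hsub : primesNQ N Q ⊆ primesNQ N (insert (q' : ℕ) Q) := by
    intro v hv
    rw [mem_primesNQ H.pos] at hv ⊢
    exact hv.imp id (fun h => Finset.mem_insert_of_mem h)
  have hmemw : ∀ w ∈ primesNQ N (insert (q' : ℕ) Q), w ≠ q' → (w : ℕ) ∣ N ∨ (w : ℕ) ∈ Q := by
    intro w hw hwq
    rw [mem_primesNQ H.pos] at hw
    refine hw.imp id (fun h => ?_)
    rcases Finset.mem_insert.1 h with h | h
    · exact absurd (Subtype.ext h) hwq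
    · exact h
  refine ⟨(q' : ℕ), hqQ, ⟨hq, hqN', fun A hA => ⟨fun s hs => ((hqA A hA).1 s hs).1, fun Φ hΦ =>
    ⟨((hqA A hA).2 Φ hΦ).1, ((hqA A hA).2 Φ hΦ).2.1⟩⟩⟩, fun η hη => ?_, fun hcon => ?_⟩
  · refine ⟨hη.1, fun ℓ hℓ hℓN hℓQ A hA s hs => ?_, fun v hv hvN A hA => ?_⟩
    · by_cases hℓq : ℓ = (q' : ℕ)
      · rw [hℓq] at hA hℓN hℓQ hℓ
        -- unramified at the standard place
        have hξm : ξ ∈ Z1 (sL (primesNQ N (insert (q' : ℕ) Q))) (vAct rb) :=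
          mem_Z1_sL rb hξ.1.1 H.sm (H.rin _) (sel_sm H hξ) (fun v hv => sel_in H hξ v
            (fun h => hv (hsub h)))
        have hηm := sel_mem H hη
        have hD : ∀ w ∈ primesNQ N (insert (q' : ℕ) Q), w ≠ q' →
            ∃ t ∈ (padicPlace (w : ℕ)).decompositionSubgroup ℚ, rb t ≠ 1 := by
          intro w hw hwq
          have hAw : (padicPlace (w : ℕ)).LiesOverPrime (w : ℕ) := CFT6.liesOver_padic (w : ℕ)
          rcases hmemw w hw hwq with h | h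
          · exact H.ram w w.2 h _ hAw
          · obtain ⟨Φ, hΦ⟩ := exists_isFrobeniusAt (L := Qb) w.2 hAw
            exact ⟨Φ, hΦ.mem_decompositionSubgroup, (((hQ _ h).2.2 _ hAw).2 Φ hΦ).2⟩
        have key := eta_unram hsub hq'S (q := q') hq2 H.sm (H.rin Q)
          (H.smooth (insert (q' : ℕ) Q)) ⟨ξ, hξm⟩ ⟨η, hηm⟩ (sel_sm H hξ) (sel_in H hξ) (sel_sm H hη)
          (sel_in H hη) (hη.2.2 q' hℓ (Or.inr (Finset.mem_insert_self _ _)) _ hAq)
          (fun Φ hΦ => by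
            obtain ⟨a1, a2, a3⟩ := (hqA _ hAq).2 Φ hΦ
            exact ⟨a2, unip_red hk R hred a1, a3⟩)
          (recip_q (H.smooth (insert (q' : ℕ) Q)) ⟨ξ, hξm⟩ ⟨η, hηm⟩ q'
            (fun w hw hwq => hξ.2.2 w w.2 (hmemw w hw hwq) _ (CFT6.liesOver_padic (w : ℕ)))
            (fun w hw hwq => hη.2.2 w w.2 ((hmemw w hw hwq).imp id
              (fun h => Finset.mem_insert_of_mem h)) _ (CFT6.liesOver_padic (w : ℕ)))
            hD H.real)
        -- conjugate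
        obtain ⟨g, hg⟩ := exists_smul_eq hℓ hAq hA
        have h3 : g⁻¹ * s * g ∈ (padicPlace (q' : ℕ)).inertiaSubgroupIn ℚ := by
          have h4 := PTC.inertia_conj (τ := g) hs
          rwa [hg, inv_smul_smul] at h4
        have h4 : rb (g⁻¹ * s * g) = 1 := H.unr q' hℓ hℓN _ hAq _ h3
        have h5 := coc_conj rb hη.1.1 h4 g
        have h6 : g * (g⁻¹ * s * g) * g⁻¹ = s := by group
        have h7 : η (g⁻¹ * s * g) = 0 := key _ h3
        rw [h6, h7, Matrix.mulVec_zero] at h5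
        exact h5
      · exact hη.2.1 ℓ hℓ hℓN (fun h => by
          rcases Finset.mem_insert.1 h with h | h
          · exact hℓq h
          · exact hℓQ h) A hA s hs
    · exact hη.2.2 v hv (hvN.imp id (fun h => Finset.mem_insert_of_mem h)) A hA
  · obtain ⟨m, hm⟩ := hcon.2.2 q' hq (Or.inr (Finset.mem_insert_self _ _)) _ hAq
    obtain ⟨Φ, hΦ⟩ := exists_isFrobeniusAt (L := Qb) hq hAq
    obtain ⟨a1, a2, a3⟩ := (hqA _ hAq).2 Φ hΦ
    have hΦD := hΦ.mem_decompositionSubgroup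
    obtain ⟨y, hy⟩ := loc_triv a2 (unip_red hk R hred a1) (hm Φ hΦD Φ hΦD)
    exact a3 y hy

include hred in
theorem sel_ind (hsm : ∃ L : IntermediateField ℚ Qb, FiniteDimensional ℚ L ∧
      ∀ σ ∈ L.fixingSubgroup, R σ = 1)
    {g₀ : GQ} (h0 : (R g₀ - 1) * (R g₀ - 1) = 0) (h1 : rb g₀ ≠ 1) (n : ℕ) : ∀ (Q : Finset ℕ),
    (∀ q ∈ Q, GoodPrime R rb N q) → Nat.card {ξ : GQ → V2 // ZThm.IsSel rb N Q ξ} ≤ n →
    ∃ Q' : Finset ℕ, Q'.card ≤ Q.card + n ∧ (∀ q ∈ Q', GoodPrime R rb N q) ∧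
      ZThm.SelZero rb N Q' := by
  induction n with
  | zero =>
    intro Q _ hn
    have := finite_sel H Q
    haveI : Nonempty {ξ : GQ → V2 // ZThm.IsSel rb N Q ξ} := ⟨⟨_, zero_sel Q⟩⟩
    have h3 : 0 < Nat.card {ξ : GQ → V2 // ZThm.IsSel rb N Q ξ} := Nat.card_pos
    omega
  | succ n ih =>
    intro Q hQ hn
    by_cases hz : ZThm.SelZero rb N Q
    · exact ⟨Q, by omega, hQ, hz⟩
    · unfold ZThm.SelZero at hz
      push Not at hz
      obtain ⟨ξ, hξ, hξ'⟩ := hz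
      obtain ⟨q, hqQ, hqg, hle, hlt⟩ := sel_step H hk R hred hsm h0 h1 hQ hξ (by
        rintro ⟨m, hm⟩
        obtain ⟨s, hs⟩ := hξ' m
        exact hs (hm s))
      have hfin := finite_sel H Q
      have hcard : Nat.card {η : GQ → V2 // ZThm.IsSel rb N (insert q Q) η} <
          Nat.card {ξ : GQ → V2 // ZThm.IsSel rb N Q ξ} := by
        let i : {η : GQ → V2 // ZThm.IsSel rb N (insert q Q) η} →
          {ξ : GQ → V2 // ZThm.IsSel rb N Q ξ} := fun η => ⟨η.1, hle η.1 η.2⟩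
        have hi : Function.Injective i := by
          intro a b hab
          have h3 := congrArg Subtype.val hab
          exact Subtype.ext h3
        refine lt_of_le_of_ne (Nat.card_le_card_of_injective i hi) (fun h => ?_)
        have hbij := (Nat.bijective_iff_injective_and_card i).2 ⟨hi, h⟩
        obtain ⟨η, hη⟩ := hbij.2 ⟨ξ, hξ⟩
        have h4 : η.1 = ξ := congrArg Subtype.val hη
        exact hlt (h4 ▸ η.2)
      obtain ⟨Q', hQ'c, hQ'g, hQ'z⟩ := ih (insert q Q) (by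
        intro q' hq'
        rcases Finset.mem_insert.1 hq' with rfl | h
        · exact hqg
        · exact hQ q' h) (by omega)
      refine ⟨Q', ?_, hQ'g, hQ'z⟩
      rw [Finset.card_insert_of_notMem hqQ] at hQ'c
      omega

end step

/-- **Theorem Z, step 1.** -/
theorem selmer_main : ∃ r : ℕ, ∀ (k : ℕ) (hk : k ≠ 0) (R : GQ →* M2 (ZMod (2 ^ k))),
    (∀ g, (R g).map (red2 hk) = rb g) →
    (∃ L : IntermediateField ℚ Qb, FiniteDimensional ℚ L ∧ ∀ σ ∈ L.fixingSubgroup, R σ = 1) →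
    (∃ g₀ : GQ, (R g₀ - 1) * (R g₀ - 1) = 0 ∧ rb g₀ ≠ 1) →
    ∃ Q : Finset ℕ, Q.card ≤ r ∧ ZThm.SelZero rb N Q ∧ ∀ q ∈ Q, GoodPrime R rb N q := by
  refine ⟨Nat.card {ξ : GQ → V2 // ZThm.IsSel rb N ∅ ξ}, fun k hk R hred hsm hg => ?_⟩
  obtain ⟨g₀, h0, h1⟩ := hg
  obtain ⟨Q, hQc, hQg, hQz⟩ := sel_ind H hk R hred hsm h0 h1 _ ∅
    (fun q hq => absurd hq (Finset.notMem_empty q)) le_rfl
  exact ⟨Q, by rwa [Finset.card_empty, zero_add] at hQc, hQz, hQg⟩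

end Fermat.Agent.ZSel
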