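import Fermat.Agent.ZSel.Dens
import Fermat.Agent.ZSel.Local
import Fermat.Agent.CFR.Br
import Fermat.Agent.ZThm.Defs

/-!
# Theorem Z, step 1: the reciprocity step
-/

set_option autoImplicit false

open scoped ComplexConjugate

namespace Fermat.Agent.ZSel

open Fermat.Agent.PT Fermat.Agent.PTLocal Fermat.Agent.PTC Fermat.Agent.ABHN Fermat.Agent.CFT
  Fermat.Agent.CFT6

attribute [local instance] isGalois_qbar

local notation "Qb" => AlgebraicClosure ℚ

/-- the map from the local to the global Galois group -/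
noncomputable abbrev rq (q : Nat.Primes) : Gq q →* PTC.GQ := ExtCitation.primeLocalToGlobal q

/-- local levels -/
noncomputable abbrev Lv (q : Nat.Primes) : Levels (Gq q) :=
  allL.comap (rq q)

/-- localisation with coefficients `𝔽₂` -/
noncomputable def locT (S : Finset Nat.Primes) (q : Nat.Primes) :
    PairHom (sL S) (trivAct PTC.GQ (ZMod 2)) (Lv q) (trivAct (Gq q) (ZMod 2)) where
  r := rq q
  f := AddMonoidHom.id _
  lev := by
    rintro _ ⟨hn, F, hF, rfl⟩
    exact ⟨_, ⟨_, ⟨hn, F, hF.1, rfl⟩, rfl⟩, fun _ h => h⟩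
  comm _ _ := rfl

/-- localisation with coefficients `V` -/
noncomputable def locV (S : Finset Nat.Primes) (q : Nat.Primes) (rb : PTC.GQ →* M2 (ZMod 2)) :
    PairHom (sL S) (vAct rb) (Lv q) (vAct (rb.comp (rq q))) where
  r := rq q
  f := AddMonoidHom.id _
  lev := by
    rintro _ ⟨hn, F, hF, rfl⟩
    exact ⟨_, ⟨_, ⟨hn, F, hF.1, rfl⟩, rfl⟩, fun _ h => h⟩
  comm _ _ := rfl

theorem smooth_loc {S : Finset Nat.Primes} (q : Nat.Primes) {rb : PTC.GQ →* M2 (ZMod 2)}
    (hsm : Smooth (sL S) (vAct rb)) :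
    Smooth (Lv q) (vAct (rb.comp (rq q))) := by
  intro a
  obtain ⟨N, hN, h⟩ := hsm a
  obtain ⟨N', hN', h'⟩ := (locV S q rb).lev N hN
  exact ⟨N', hN', fun s hs => h _ (h' s hs)⟩

theorem locT_cup {S : Finset Nat.Primes} (q : Nat.Primes) {rb : PTC.GQ →* M2 (ZMod 2)}
    (hsm : Smooth (sL S) (vAct rb)) (x y : H1 (sL S) (vAct rb)) :
    (locT S q).h2 ((detP rb).cup hsm x y) =
      (detP (rb.comp (rq q))).cup (smooth_loc q hsm)
        ((locV S q rb).h1 x) ((locV S q rb).h1 y) :=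
  Pairing.cup_nat _ _ hsm (smooth_loc q hsm) (locV S q rb) (locV S q rb) (locT S q)
    (fun _ => rfl) (fun _ => rfl) (fun _ _ => rfl) x y

theorem locT_cupT {S : Finset Nat.Primes} (q : Nat.Primes)
    (x y : H1 (sL S) (trivAct PTC.GQ (ZMod 2))) :
    (locT S q).h2 (cupT 2 (sL S) x y) =
      cupT 2 (Lv q) ((locT S q).h1 x) ((locT S q).h1 y) :=
  Pairing.cup_nat _ (mulP 2 (Gq q)) _ (smooth_trivAct _) (locT S q) (locT S q) (locT S q)
    (fun _ => rfl) (fun _ => rfl) (fun _ _ => rfl) x y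

theorem neg_one_prim : IsPrimitiveRoot (-1 : Qb) 2 := IsPrimitiveRoot.neg_one 0 (by decide)

theorem neg_one_prim_loc (q : Nat.Primes) : IsPrimitiveRoot (-1 : Cq q) 2 := by
  haveI : CharZero (Cq q) := charZero_of_injective_algebraMap
    (algebraMap ℚ_[(q : ℕ)] (Cq q)).injective
  exact IsPrimitiveRoot.neg_one 0 (by decide)

/-- the sign embedding -/
noncomputable def emb (S : Finset Nat.Primes) :
    PairHom (sL S) (trivAct PTC.GQ (ZMod 2)) allL (galAct ℚ Qb) where
  r := MonoidHom.id _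
  f := zetaHom neg_one_prim
  lev := by
    rintro _ ⟨hn, F, hF, rfl⟩
    exact ⟨_, ⟨hn, F, hF.1, rfl⟩, fun _ h => h⟩
  comm γ a := by
    apply Additive.toMul.injective
    apply Units.ext
    show ((Additive.toMul (zetaHom neg_one_prim a) : Qbˣ) : Qb) =
      γ ((Additive.toMul (zetaHom neg_one_prim a) : Qbˣ) : Qb)
    rw [zetaHom_apply, map_pow, map_neg, map_one]

theorem embq_comm (q : Nat.Primes) (γ : Gq q) (a : ZMod 2) :
    zetaHom (neg_one_prim_loc q) (trivAct (Gq q) (ZMod 2) γ a) =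
      (lgq q).act γ (zetaHom (neg_one_prim_loc q) a) := by
  apply Additive.toMul.injective
  apply Units.ext
  show ((Additive.toMul (zetaHom (neg_one_prim_loc q) a) : (Cq q)ˣ) : Cq q) =
      γ ((Additive.toMul (zetaHom (neg_one_prim_loc q) a) : (Cq q)ˣ) : Cq q)
  rw [zetaHom_apply, map_pow, map_neg, map_one]

/-- the local sign embedding -/
noncomputable def embq (q : Nat.Primes) :
    PairHom (Lv q) (trivAct (Gq q) (ZMod 2)) (Lv q) (galAct ℚ_[(q : ℕ)] (Cq q)) where
  r := MonoidHom.id _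
  f := zetaHom (neg_one_prim_loc q)
  lev N hN := ⟨N, hN, fun _ h => h⟩
  comm := embq_comm q

theorem embq_injective (q : Nat.Primes) : Function.Injective (embq q).h2 := by
  have h := kumMu_h2_injective (hG := lgq q) (p := 2) (τ := trivAct (Gq q) (ZMod 2))
    (i := zetaHom (neg_one_prim_loc q)) (zetaHom_injective (neg_one_prim_loc q)) (embq_comm q)
  intro x y hxy
  apply h
  have e : ∀ z, ((kumMu (lgq q) (zetaHom_injective (neg_one_prim_loc q)) (embq_comm q)).i.h2
      (Lv q) z) = (embq q).h2 z := fun z =>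
    PairHom.h2_congr (fun _ => rfl) (fun _ => rfl) z
  exact (e x).trans (hxy.trans (e y).symm)

/-- localisation of the Brauer group -/
noncomputable def locB (q : Nat.Primes) :
    PairHom allL (galAct ℚ Qb) (Lv q) (galAct ℚ_[(q : ℕ)] (Cq q)) := sysAll.loc q

theorem loc_emb (S : Finset Nat.Primes) (q : Nat.Primes)
    (x : H2 (sL S) (trivAct PTC.GQ (ZMod 2))) :
    (locB q).h2 ((emb S).h2 x) = (embq q).h2 ((locT S q).h2 x) := by
  rw [← PairHom.h2_comp, ← PairHom.h2_comp]
  refine PairHom.h2_congr (φ := (locB q).comp (emb S)) (ψ := (embq q).comp (locT S q))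
    (fun _ => rfl) (fun a => ?_) x
  apply Additive.toMul.injective
  apply Units.ext
  show iq q ((Additive.toMul (zetaHom neg_one_prim a) : Qbˣ) : Qb) =
    ((Additive.toMul (zetaHom (neg_one_prim_loc q) a) : (Cq q)ˣ) : Cq q)
  rw [zetaHom_apply, zetaHom_apply, map_pow, map_neg, map_one]

/-- the sign embedding restricted to a subgroup -/
noncomputable def embR (S : Finset Nat.Primes) (U : Subgroup PTC.GQ) :
    PairHom ((sL S).sub U) (trivAct U (ZMod 2)) (allL.sub U) (resAct (galAct ℚ Qb) U) where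
  r := MonoidHom.id _
  f := zetaHom neg_one_prim
  lev := by
    rintro _ ⟨_, ⟨hn, F, hF, rfl⟩, rfl⟩
    exact ⟨_, ⟨_, ⟨hn, F, hF.1, rfl⟩, rfl⟩, fun _ h => h⟩
  comm γ a := (emb S).comm (γ : PTC.GQ) a

theorem res_emb (S : Finset Nat.Primes) (U : Subgroup PTC.GQ)
    (x : H2 (sL S) (trivAct PTC.GQ (ZMod 2))) :
    (resPair allL (galAct ℚ Qb) U).h2 ((emb S).h2 x) = (embR S U).h2 ((resT 2 (sL S) U).h2 x) := by
  rw [← PairHom.h2_comp, ← PairHom.h2_comp]
  exact PairHom.h2_congr (fun _ => rfl) (fun a => rfl) x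

/-- restriction with coefficients `V` -/
noncomputable def resV (L : Levels PTC.GQ) (rb : PTC.GQ →* M2 (ZMod 2)) (U : Subgroup PTC.GQ) :
    PairHom L (vAct rb) (L.sub U) (vAct (rb.comp U.subtype)) where
  r := U.subtype
  f := AddMonoidHom.id _
  lev N hN := ⟨_, ⟨N, hN, rfl⟩, fun _ h => h⟩
  comm _ _ := rfl

theorem res_cup {L : Levels PTC.GQ} {rb : PTC.GQ →* M2 (ZMod 2)} (U : Subgroup PTC.GQ)
    (hsm : Smooth L (vAct rb)) (hsm' : Smooth (L.sub U) (vAct (rb.comp U.subtype)))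
    (x y : H1 L (vAct rb)) :
    (resT 2 L U).h2 ((detP rb).cup hsm x y) =
      (detP (rb.comp U.subtype)).cup hsm' ((resV L rb U).h1 x) ((resV L rb U).h1 y) :=
  Pairing.cup_nat _ _ hsm hsm' (resV L rb U) (resV L rb U) (resT 2 L U)
    (fun _ => rfl) (fun _ => rfl) (fun _ _ => rfl) x y

/-- the sign character of `GL₂(𝔽₂)` -/
def sg (m : M2 (ZMod 2)) : ZMod 2 := m 0 1 + m 1 0 + (m 0 0 + 1) * (m 1 1 + 1)

theorem sg_mul {m n : M2 (ZMod 2)} (hm : m.det = 1) (hn : n.det = 1) :
    sg (m * n) = sg m + sg n := by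
  have e : ∀ i j, (m * n) i j = m i 0 * n 0 j + m i 1 * n 1 j := fun i j => by
    rw [Matrix.mul_apply, Fin.sum_univ_two]
  unfold sg
  rw [e, e, e, e]
  rw [Matrix.det_fin_two] at hm hn
  generalize m 0 0 = a at *
  generalize m 0 1 = b at *
  generalize m 1 0 = c at *
  generalize m 1 1 = d at *
  generalize n 0 0 = a' at *
  generalize n 0 1 = b' at *
  generalize n 1 0 = c' at *
  generalize n 1 1 = d' at *
  clear e
  revert a b c d a' b' c' d'
  decide

theorem sg_one : sg 1 = 0 := by decide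

theorem sg_unip {T : M2 (ZMod 2)} (hT : T ≠ 1) (h : (T - 1) * (T - 1) = 0) : sg T = 1 := by
  rw [eta2 T] at hT h ⊢
  generalize T 0 0 = a at *
  generalize T 0 1 = b at *
  generalize T 1 0 = c at *
  generalize T 1 1 = d at *
  revert a b c d
  decide

/-- the line fixed by a transvection -/
theorem exists_line {T : M2 (ZMod 2)} (hT : T ≠ 1) (h : (T - 1) * (T - 1) = 0) :
    ∃ l : V2, T.mulVec l = l ∧ (∀ y, T.mulVec y = y → y = 0 ∨ y = l) ∧
      ∀ x : V2, (∀ y, x ≠ T.mulVec y - y) → det2 x l = 1 := by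
  have hcase : T = !![1, 1; 0, 1] ∨ T = !![1, 0; 1, 1] ∨ T = !![0, 1; 1, 0] := by
    rw [eta2 T] at hT h ⊢
    generalize T 0 0 = a at *
    generalize T 0 1 = b at *
    generalize T 1 0 = c at *
    generalize T 1 1 = d at *
    revert a b c d
    decide
  rcases hcase with rfl | rfl | rfl
  · exact ⟨![1, 0], by decide, by decide, by decide⟩
  · exact ⟨![0, 1], by decide, by decide, by decide⟩
  · exact ⟨![1, 1], by decide, by decide, by decide⟩

end Fermat.Agent.ZSel
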