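import Fermat.Agent.ZSel.Recip

/-!
# Theorem Z, step 1: the reciprocity step, second part
-/

set_option autoImplicit false

open scoped ComplexConjugate Pointwise

namespace Fermat.Agent.ZSel

open Fermat.Agent.PT Fermat.Agent.PTLocal Fermat.Agent.PTC Fermat.Agent.ABHN Fermat.Agent.CFT
  Fermat.Agent.CFT6

attribute [local instance] isGalois_qbar

local notation "Qb" => AlgebraicClosure ℚ

variable {S : Finset Nat.Primes} {rb : PTC.GQ →* M2 (ZMod 2)}

/-- local triviality at places where both classes are isotropic -/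
theorem loc_isotropic (hsm : Smooth (sL S) (vAct rb)) (ξ η : Z1 (sL S) (vAct rb))
    (w : Nat.Primes)
    (hξ : ZThm.IsLocSel rb ((padicPlace (w : ℕ)).decompositionSubgroup ℚ) (ξ : PTC.GQ → V2))
    (hη : ZThm.IsLocSel rb ((padicPlace (w : ℕ)).decompositionSubgroup ℚ) (η : PTC.GQ → V2))
    (ht : ∃ t ∈ (padicPlace (w : ℕ)).decompositionSubgroup ℚ, rb t ≠ 1) :
    (locT S w).h2 ((detP rb).cup hsm (H1.mk _ _ ξ) (H1.mk _ _ η)) = 0 := by
  obtain ⟨m, hm⟩ := hξ
  obtain ⟨m', hm'⟩ := hη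
  obtain ⟨t, htD, ht⟩ := ht
  have hD : ∀ γ : Gq w, rq w γ ∈
      (padicPlace (w : ℕ)).decompositionSubgroup ℚ := fun γ =>
    localGaloisToGlobal_mem_decompositionSubgroup (w : ℕ) γ
  rw [locT_cup, PairHom.h1_mk, PairHom.h1_mk]
  refine cup_isotropic (rb.comp (rq w)) (smooth_loc w hsm) _ _ ht m m'
    (fun g => ?_) (fun g => ?_) (fun s g => ?_)
  · exact hm _ (hD g) t htD
  · exact hm' _ (hD g) t htD
  · exact hm' _ (hD g) _ (hD s)

/-- triviality at the real place -/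
theorem real_triv (hsm : Smooth (sL S) (vAct rb)) (ξ η : Z1 (sL S) (vAct rb)) {c : PTC.GQ}
    {ι : Qb →+* ℂ} (hc : ∀ z, ι (c z) = conj (ι z)) (hrc : rb c ≠ 1) :
    (resPair allL (galAct ℚ Qb) (Subgroup.zpowers c)).h2
      ((emb S).h2 ((detP rb).cup hsm (H1.mk _ _ ξ) (H1.mk _ _ η))) = 0 := by
  have hcc : c * c = 1 := by
    apply AlgEquiv.ext
    intro z
    apply ι.injective
    show ι (c (c z)) = ι z
    rw [hc, hc, Complex.conj_conj]
  have hsm' : Smooth ((sL S).sub (Subgroup.zpowers c))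
      (vAct (rb.comp (Subgroup.zpowers c).subtype)) := by
    intro a
    obtain ⟨N, hN, h⟩ := hsm a
    exact ⟨_, ⟨N, hN, rfl⟩, fun s hs => h _ hs⟩
  rw [res_emb, res_cup (Subgroup.zpowers c) hsm hsm', PairHom.h1_mk, PairHom.h1_mk]
  have h0 := cup_of_involution (rb.comp (Subgroup.zpowers c).subtype) hsm'
    ((resV (sL S) rb (Subgroup.zpowers c)).z1 ξ) ((resV (sL S) rb (Subgroup.zpowers c)).z1 η)
    (c := ⟨c, Subgroup.mem_zpowers c⟩) hrc (Subtype.ext hcc) (by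
      rintro ⟨g, n, rfl⟩
      have h2 : c ^ (2 : ℤ) = 1 := by
        rw [show (2 : ℤ) = 1 + 1 by norm_num, zpow_add, zpow_one, hcc]
      rcases Int.even_or_odd n with ⟨k, hk⟩ | ⟨k, hk⟩
      · left
        apply Subtype.ext
        show c ^ n = 1
        rw [hk, ← two_mul, zpow_mul, h2, one_zpow]
      · right
        apply Subtype.ext
        show c ^ n = c
        rw [hk, zpow_add, zpow_mul, h2, one_zpow, one_mul, zpow_one])
  rw [h0, map_zero]

/-- reciprocity -/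
theorem recip_q (hsm : Smooth (sL S) (vAct rb)) (ξ η : Z1 (sL S) (vAct rb)) (q : Nat.Primes)
    (hξ : ∀ w ∈ S, w ≠ q →
      ZThm.IsLocSel rb ((padicPlace (w : ℕ)).decompositionSubgroup ℚ) (ξ : PTC.GQ → V2))
    (hη : ∀ w ∈ S, w ≠ q →
      ZThm.IsLocSel rb ((padicPlace (w : ℕ)).decompositionSubgroup ℚ) (η : PTC.GQ → V2))
    (ht : ∀ w ∈ S, w ≠ q → ∃ t ∈ (padicPlace (w : ℕ)).decompositionSubgroup ℚ, rb t ≠ 1)
    (hreal : ∃ (c : PTC.GQ) (ι : Qb →+* ℂ), (∀ z, ι (c z) = conj (ι z)) ∧ rb c ≠ 1) :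
    (locT S q).h2 ((detP rb).cup hsm (H1.mk _ _ ξ) (H1.mk _ _ η)) = 0 := by
  set x := (detP rb).cup hsm (H1.mk _ _ ξ) (H1.mk _ _ η) with hx
  apply embq_injective q
  rw [map_zero, ← loc_emb]
  refine CFR.recip_br (p := 2) ((emb S).h2 x) ?_ q (fun w hw => ?_) (fun _ => ?_)
  · rw [← map_nsmul, p_nsmul_h2, map_zero]
  · have h1 : (locT S w).h2 x = 0 := by
      by_cases hwS : w ∈ S
      · exact loc_isotropic hsm ξ η w (hξ w hwS hw) (hη w hwS hw) (ht w hwS hw)
      · exact unr_sL hwS (locT S w) rfl (smooth_trivAct _) (p := 2) (by norm_num)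
          (fun a => by revert a; decide) x
    have h2 := loc_emb S w x
    rw [h1, map_zero] at h2
    exact h2
  · obtain ⟨c, ι, hc, hrc⟩ := hreal
    exact ⟨c, ι, hc, real_triv hsm ξ η hc hrc⟩

end Fermat.Agent.ZSel
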