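import Fermat.Agent.ZSel.Recip2

/-!
# Theorem Z, step 1: classes orthogonal to the chosen class are unramified at the new prime
-/

set_option autoImplicit false

open scoped ComplexConjugate Pointwise

namespace Fermat.Agent.ZSel

open Fermat.Agent.PT Fermat.Agent.PTLocal Fermat.Agent.PTC Fermat.Agent.ABHN Fermat.Agent.CFT
  Fermat.Agent.CFT6

attribute [local instance] isGalois_qbar

local notation "Qb" => AlgebraicClosure ℚ

theorem agree {rb : PTC.GQ →* M2 (ZMod 2)} {ξ : PTC.GQ → V2}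
    (hξ : ∀ g h, ξ (g * h) = ξ g + (rb g).mulVec (ξ h)) {F : IntermediateField ℚ Qb}
    (hF : F.fixingSubgroup ≤ cocKer rb hξ) {a b : PTC.GQ} (h : ∀ x ∈ F, a x = b x) :
    rb a = rb b ∧ ξ a = ξ b := by
  have h1 : a⁻¹ * b ∈ cocKer rb hξ := by
    apply hF
    rw [IntermediateField.mem_fixingSubgroup_iff]
    intro x hx
    rw [AlgEquiv.mul_apply, ← h x hx]
    exact a.symm_apply_apply x
  have h2 : b = a * (a⁻¹ * b) := by rw [mul_inv_cancel_left]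
  refine ⟨?_, ?_⟩
  · rw [h2, map_mul, h1.1, mul_one]
  · rw [h2, hξ, h1.2, Matrix.mulVec_zero, add_zero]

theorem chi_pow {G : Type*} [Group G] {L : Levels G} (χ : Chi 2 L) (g : G) (n : ℕ) :
    (χ : G → ZMod 2) (g ^ n) = n * (χ : G → ZMod 2) g := by
  induction n with
  | zero => rw [pow_zero, chi_one]; simp
  | succ n ih => rw [pow_succ, chi_mul, ih]; push_cast; ring

/-- **The local conclusion at the auxiliary prime.** -/
theorem eta_unram {S S₁ : Finset Nat.Primes} (hS : S₁ ⊆ S) {q : Nat.Primes} (hq : q ∉ S₁)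
    (hq2 : (q : ℕ) ≠ 2) {rb : PTC.GQ →* M2 (ZMod 2)}
    (hrsm : ∃ L : IntermediateField ℚ Qb, FiniteDimensional ℚ L ∧
      ∀ σ ∈ L.fixingSubgroup, rb σ = 1)
    (hrin : ∀ v : Nat.Primes, v ∉ S₁ → ∀ A : ValuationSubring Qb,
      A.LiesOverPrime (v : ℕ) → ∀ s ∈ A.inertiaSubgroupIn ℚ, rb s = 1)
    (hsm : Smooth (sL S) (vAct rb)) (ξ η : Z1 (sL S) (vAct rb))
    (hξsm : ∃ L : IntermediateField ℚ Qb, FiniteDimensional ℚ L ∧
      ∀ σ ∈ L.fixingSubgroup, (ξ : PTC.GQ → V2) σ = 0)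
    (hξin : ∀ v : Nat.Primes, v ∉ S₁ → ∀ A : ValuationSubring Qb,
      A.LiesOverPrime (v : ℕ) → ∀ s ∈ A.inertiaSubgroupIn ℚ, (ξ : PTC.GQ → V2) s = 0)
    (hηsm : ∃ L : IntermediateField ℚ Qb, FiniteDimensional ℚ L ∧
      ∀ σ ∈ L.fixingSubgroup, (η : PTC.GQ → V2) σ = 0)
    (hηin : ∀ v : Nat.Primes, v ∉ S → ∀ A : ValuationSubring Qb,
      A.LiesOverPrime (v : ℕ) → ∀ s ∈ A.inertiaSubgroupIn ℚ, (η : PTC.GQ → V2) s = 0)
    (hηloc : ZThm.IsLocSel rb ((padicPlace (q : ℕ)).decompositionSubgroup ℚ)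
      (η : PTC.GQ → V2))
    (hΦ : ∀ Φ, (padicPlace (q : ℕ)).IsFrobeniusAt Φ q → rb Φ ≠ 1 ∧
      (rb Φ - 1) * (rb Φ - 1) = 0 ∧ ∀ x, (ξ : PTC.GQ → V2) Φ ≠ (rb Φ).mulVec x - x)
    (h0 : (locT S q).h2 ((detP rb).cup hsm (H1.mk _ _ ξ) (H1.mk _ _ η)) = 0) :
    ∀ s ∈ (padicPlace (q : ℕ)).inertiaSubgroupIn ℚ, (η : PTC.GQ → V2) s = 0 := by
  have hξc : ∀ g h, (ξ : PTC.GQ → V2) (g * h) = (ξ : PTC.GQ → V2) g +
    (rb g).mulVec ((ξ : PTC.GQ → V2) h) := (mem_Z1'.1 ξ.2).2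
  have hηc : ∀ g h, (η : PTC.GQ → V2) (g * h) = (η : PTC.GQ → V2) g +
    (rb g).mulVec ((η : PTC.GQ → V2) h) := (mem_Z1'.1 η.2).2
  have hAq := liesOver_padic (q : ℕ)
  set r : Gq q →* PTC.GQ := rq q with hrdef
  have hr : ∀ τ x, (padicEmbedding (q : ℕ)).toRingHom (r τ x) =
      τ ((padicEmbedding (q : ℕ)).toRingHom x) := fun τ x =>
    padicEmbedding_localGaloisToGlobal (q : ℕ) τ x
  -- the level of `ξ`
  obtain ⟨F₀, hF₀, hF₀K⟩ := exists_level rb hξc hrsm hrin hξsm hξin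
  let F := IntermediateField.normalClosure ℚ F₀ Qb
  have hF : F.IsUnramifiedOutside S₁ := IsUnramifiedOutside.normalClosure hF₀
  have hFnm : @Normal ℚ F _ _ F.algebra' := normalClosure.normal _ _ _
  have hFnm' : Normal ℚ F := normal_conv.1 hFnm
  have hFfd : FiniteDimensional ℚ F := hF.1
  have hFK : F.fixingSubgroup ≤ cocKer rb hξc := by
    rw [← hF₀K]
    exact IntermediateField.fixingSubgroup_antitone (IntermediateField.le_normalClosure F₀)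
  have hFin : (padicPlace (q : ℕ)).inertiaSubgroupIn ℚ ≤ F.fixingSubgroup := hF.2 q hq _ hAq
  obtain ⟨σ₀, g, hσ₀, hg⟩ := exists_frob_loc (padicEmbedding (q : ℕ)).toRingHom
    mem_nonunits_padic hAq r hr F
  obtain ⟨hT1, hT2, hT3⟩ := hΦ σ₀ hσ₀
  obtain ⟨l, hl1, hl2, hl3⟩ := exists_line hT1 hT2
  obtain ⟨hag1, hag2⟩ := agree hξc hFK hg
  set u := (ξ : PTC.GQ → V2) σ₀ with hu
  have hul : det2 u l = 1 := hl3 _ hT3
  have hσ₀D : σ₀ ∈ (padicPlace (q : ℕ)).decompositionSubgroup ℚ := hσ₀.mem_decompositionSubgroup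
  have hD : ∀ γ : Gq q, r γ ∈ (padicPlace (q : ℕ)).decompositionSubgroup ℚ := fun γ =>
    localGaloisToGlobal_mem_decompositionSubgroup (q : ℕ) γ
  have hgen : ∀ γ : Gq q, ∃ j : ℕ, r ((g ^ j)⁻¹ * γ) ∈ cocKer rb hξc := by
    intro γ
    obtain ⟨j, hj⟩ := procyc (padicEmbedding (q : ℕ)).toRingHom mem_nonunits_padic hAq r hr F
      hFin hσ₀ hg γ
    exact ⟨j, hFK hj⟩
  have hTl : ∀ γ : Gq q, (rb (r γ)).mulVec l = l := by
    intro γ
    obtain ⟨j, hj⟩ := hgen γ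
    have h1 : γ = g ^ j * ((g ^ j)⁻¹ * γ) := by rw [mul_inv_cancel_left]
    have h2 : rb (r γ) = rb σ₀ ^ j := by
      rw [h1, map_mul, map_mul, hj.1, mul_one, map_pow, map_pow, hag1]
    rw [h2]
    clear h2 hj h1
    induction j with
    | zero => rw [pow_zero, Matrix.one_mulVec]
    | succ j ih => rw [pow_succ, ← Matrix.mulVec_mulVec, hl1, ih]
  -- the character attached to `ξ`
  have hχmem : (fun γ : Gq q => det2 ((ξ : PTC.GQ → V2) (r γ)) l) ∈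
      Z1 (Lv q) (trivAct (Gq q) (ZMod 2)) := by
    rw [mem_Z1']
    refine ⟨((locV S q rb).z1 ξ).2.1.comp (fun v : V2 => det2 v l), fun a b => ?_⟩
    show det2 ((ξ : PTC.GQ → V2) (r (a * b))) l = _
    rw [map_mul, hξc, map_add, AddMonoidHom.add_apply]
    congr 1
    have h1 : det2 ((rb (r a)).mulVec ((ξ : PTC.GQ → V2) (r b))) ((rb (r a)).mulVec l) =
        det2 ((ξ : PTC.GQ → V2) (r b)) l := by rw [det2_mulVec, det_rb, one_mul]
    rw [hTl] at h1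
    exact h1
  set χ : Chi 2 (Lv q) := ⟨_, hχmem⟩ with hχ
  have hχv : ∀ γ, (χ : Gq q → ZMod 2) γ = det2 ((ξ : PTC.GQ → V2) (r γ)) l := fun _ => rfl
  have hχg : (χ : Gq q → ZMod 2) g = 1 := by rw [hχv, hag2, hul]
  have hχ0 : χ ≠ 0 := by
    intro h
    rw [h] at hχg
    exact zero_ne_one hχg
  -- the cocycle `η'`
  obtain ⟨m, hm⟩ := hηloc
  have hη' : ∀ γ : Gq q, (η : PTC.GQ → V2) (r γ) + ((rb (r γ)).mulVec m - m) = 0 ∨
      (η : PTC.GQ → V2) (r γ) + ((rb (r γ)).mulVec m - m) = l := fun γ =>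
    hl2 _ (hm _ (hD γ) _ hσ₀D)
  set ηq : Z1 (Lv q) (vAct (rb.comp r)) := (locV S q rb).z1 η + ⟨_, d0_mem_Z1
    (smooth_loc q hsm) m⟩ with hηq
  have hηqv : ∀ γ, (ηq : Gq q → V2) γ = (η : PTC.GQ → V2) (r γ) + ((rb (r γ)).mulVec m - m) :=
    fun _ => rfl
  have hηq01 : ∀ γ, (ηq : Gq q → V2) γ = 0 ∨ (ηq : Gq q → V2) γ = l := hη'
  have hηqc : ∀ a b, (ηq : Gq q → V2) (a * b) = (ηq : Gq q → V2) a + (ηq : Gq q → V2) b := by
    intro a b
    have h1 := (mem_Z1'.1 ηq.2).2 a b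
    rw [vAct_apply] at h1
    rw [h1]
    congr 1
    rcases hηq01 b with h | h
    · rw [h, Matrix.mulVec_zero]
    · rw [h]; exact hTl a
  have hfmem : (fun γ : Gq q => det2 u ((ηq : Gq q → V2) γ)) ∈
      Z1 (Lv q) (trivAct (Gq q) (ZMod 2)) := by
    rw [mem_Z1']
    refine ⟨ηq.2.1.comp (fun v : V2 => det2 u v), fun a b => ?_⟩
    show det2 u ((ηq : Gq q → V2) (a * b)) = _
    rw [hηqc, map_add]
    rfl
  set f : Chi 2 (Lv q) := ⟨_, hfmem⟩ with hf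
  have hfv : ∀ γ, (f : Gq q → ZMod 2) γ = det2 u ((ηq : Gq q → V2) γ) := fun _ => rfl
  have hηf : ∀ γ, (ηq : Gq q → V2) γ = (f : Gq q → ZMod 2) γ • l := by
    intro γ
    rw [hfv]
    rcases hηq01 γ with h | h
    · rw [h, map_zero, zero_smul]
    · rw [h, hul, one_smul]
  -- the cup product
  have hcup : cupT 2 (Lv q) (H1.mk _ _ χ) (H1.mk _ _ f) = 0 := by
    rw [locT_cup, PairHom.h1_mk, PairHom.h1_mk,
      ← mk_add_d0 ((locV S q rb).z1 η) ηq m (fun _ => rfl), Pairing.cup_mk] at h0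
    have h1 : cupT 2 (Lv q) (H1.mk _ _ χ) (H1.mk _ _ f) =
        H2.mk (Lv q) (trivAct (Gq q) (ZMod 2)) ((mulP 2 (Gq q)).cz (smooth_trivAct _) χ f) := rfl
    rw [h1, ← h0]
    congr 1
    apply Subtype.ext
    ext a b
    rw [Pairing.coe_cz, Pairing.coe_cz]
    show (χ : Gq q → ZMod 2) a * (f : Gq q → ZMod 2) b =
      det2 ((ξ : PTC.GQ → V2) (r a)) ((rb (r a)).mulVec ((ηq : Gq q → V2) b))
    rw [hηf b, hχv]
    have hc : (f : Gq q → ZMod 2) b = 0 ∨ (f : Gq q → ZMod 2) b = 1 := by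
      generalize (f : Gq q → ZMod 2) b = y
      revert y
      decide
    rcases hc with h | h
    · rw [h, mul_zero, zero_smul, Matrix.mulVec_zero, map_zero]
    · rw [h, mul_one, one_smul, hTl]
  -- the sign character
  have hμmem : (fun g : PTC.GQ => sg (rb g)) ∈ Z1 (sL S₁) (trivAct PTC.GQ (ZMod 2)) := by
    obtain ⟨N, hN, hle⟩ := exists_sL_le hF₀
    rw [mem_Z1']
    refine ⟨⟨N, hN, fun g s hs => ?_⟩, fun a b => ?_⟩
    · have h1 := hle hs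
      rw [hF₀K] at h1
      show sg (rb (g * s)) = sg (rb g)
      rw [map_mul, h1.1, mul_one]
    · show sg (rb (a * b)) = _
      rw [map_mul, sg_mul (det_rb rb a) (det_rb rb b)]
      rfl
  set μ : Chi 2 (sL S₁) := ⟨_, hμmem⟩ with hμ
  have hμμ : cupT 2 (Lv q) (H1.mk _ _ ((locT S₁ q).z1 μ)) (H1.mk _ _ ((locT S₁ q).z1 μ)) = 0 := by
    have h1 := locT_cupT q (H1.mk (sL S₁) _ μ) (H1.mk (sL S₁) _ μ)
    rw [PairHom.h1_mk] at h1
    rw [← h1]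
    exact unr_sL hq (locT S₁ q) rfl (smooth_trivAct _) (p := 2) (by norm_num)
      (fun a => by revert a; decide) _
  have hμv : ∀ γ, (((locT S₁ q).z1 μ : Chi 2 (Lv q)) : Gq q → ZMod 2) γ = sg (rb (r γ)) :=
    fun _ => rfl
  have hχμ : χ = (locT S₁ q).z1 μ := by
    apply Subtype.ext
    ext1 γ
    obtain ⟨j, hj⟩ := hgen γ
    have h1 : γ = g ^ j * ((g ^ j)⁻¹ * γ) := by rw [mul_inv_cancel_left]
    have e1 : (χ : Gq q → ZMod 2) γ = j := by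
      rw [h1, chi_mul, chi_pow, hχg, mul_one, hχv ((g ^ j)⁻¹ * γ), hj.2, map_zero,
        AddMonoidHom.zero_apply, add_zero]
    have e2 : (((locT S₁ q).z1 μ : Chi 2 (Lv q)) : Gq q → ZMod 2) γ = j := by
      rw [h1, chi_mul, chi_pow, hμv ((g ^ j)⁻¹ * γ), hj.1, sg_one, add_zero, hμv, hag1,
        sg_unip hT1 hT2, mul_one]
    rw [e1, e2]
  have hχχ : cupT 2 (Lv q) (H1.mk _ _ χ) (H1.mk _ _ χ) = 0 := by rw [hχμ]; exact hμμ
  have hfin := local_kernel (lgq q) hq2 hχ0 hχχ hcup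
  -- conclusion
  intro s hs
  obtain ⟨F₂, hF₂, hF₂K⟩ := exists_level rb hηc hrsm
    (fun v hv => hrin v (fun h => hv (hS h))) hηsm hηin
  have hF₂fd : FiniteDimensional ℚ F₂ := hF₂.1
  have hsA : s • (padicPlace (q : ℕ)) = padicPlace (q : ℕ) := ((PTC.mem_inertia_iff _ s).1 hs).1
  obtain ⟨γ, hγ⟩ := exists_loc (padicEmbedding (q : ℕ)).toRingHom mem_nonunits_padic r hr F₂ s hsA
  obtain ⟨hs1, hs2⟩ := agree hηc hF₂K.le hγ
  have hrs : rb s = 1 := hrin q hq _ hAq s hs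
  have hfγ : (f : Gq q → ZMod 2) γ = 0 := by
    rcases hfin with h | h
    · rw [h]; rfl
    · rw [h, hχμ, hμv, hs1, hrs, sg_one]
  have h1 := hηf γ
  rw [hfγ, zero_smul, hηqv, hs1, hrs, Matrix.one_mulVec, sub_self, add_zero] at h1
  rw [← hs2]
  exact h1

end Fermat.Agent.ZSel
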